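import Fermat.Agent.RT.Germ.SpecialPrime

/-!
# The end of the chain

Where all scalar places are special, a point of the limit relations and of the special relations
lies on every prime of full dimension containing both. Before that: pulling back along a map
surjective modulo a prime keeps the dimension of the quotient (`ringKrullDim_comap_eq`).
-/

set_option autoImplicit false

noncomputable section

namespace Fermat.Agent.RT.Algebra

open IsLocalRing MvPowerSeries Fermat.Agent.RT.Germ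

section Step

variable {Λ : Type*} [CommRing Λ]

/-- Pulling back along a homomorphism surjective modulo `q` keeps the dimension of the quotient. -/
theorem ringKrullDim_comap_eq {A : Type*} [CommRing A] (θ : A →+* Λ) {q : Ideal Λ}
    (hθ : ∀ x, ∃ a, x - θ a ∈ q) :
    ringKrullDim (A ⧸ q.comap θ) = ringKrullDim (Λ ⧸ q) := by
  refine ringKrullDim_eq_of_ringEquiv (RingEquiv.ofBijective (Ideal.quotientMap q θ le_rfl)
    ⟨Ideal.quotientMap_injective' le_rfl, fun y => ?_⟩)
  obtain ⟨x, rfl⟩ := Ideal.Quotient.mk_surjective y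
  obtain ⟨a, ha⟩ := hθ x
  exact ⟨Ideal.Quotient.mk _ a, (Ideal.Quotient.eq.mpr ha).symm⟩

end Step

section End

variable {V ρ : Type*} [Finite V] [Finite ρ] {O : Type*} [CommRing O] [IsDomain O]
  [IsDiscreteValuationRing O] [IsAdicComplete (maximalIdeal O) O] [Finite (ResidueField O)]
  {K : Type*} [NontriviallyNormedField K] [IsUltrametricDist K] [CompleteSpace K] [IsAlgClosed K]
  {η : V → O} {Λ : Type*} [CommRing Λ]

/-- **The end of the chain.** A point `ψ` of the limit relations `R` and of the special relations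
lies on every prime `q` of full dimension containing them. -/
theorem le_ker_of_fullDimPrime (φ : O →+* ball1 K) (hφinj : Function.Injective φ)
    (hφ : ∀ c ∈ maximalIdeal O, ‖(φ c : K)‖ < 1) (h2 : ‖(2 : K)‖ = 1) (hη0 : ∀ v, η v ≠ 0)
    (hηm : ∀ v, η v ∈ maximalIdeal O) (θ : MvPowerSeries (Coord V ρ) O →+* Λ) {R q : Ideal Λ}
    [q.IsPrime] (hθ : ∀ x, ∃ a, x - θ a ∈ R) (hRq : R ≤ q)
    (hrel : ∀ r ∈ specialRel η, θ r ∈ q)
    (hdim : ((Nat.card (V × Fin 3 ⊕ ρ) + 1 : ℕ) : WithBot ℕ∞) ≤ ringKrullDim (Λ ⧸ q))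
    (ψ : Λ →+* ball1 K) (hψC : ∀ o, ψ (θ (C o)) = φ o)
    (hψX : ∀ c, ‖(ψ (θ (X c)) : K)‖ < 1) (hψR : R ≤ RingHom.ker ψ)
    (hψrel : ∀ r ∈ specialRel (ρ := ρ) η, ψ (θ r) = 0) : q ≤ RingHom.ker ψ := by
  intro f hf
  obtain ⟨a, ha⟩ := hθ f
  have hev : ψ.comp θ = ev φ (fun c => ψ (θ (X c))) hψX := eq_ev _ _ _ hψC fun c => rfl
  have hdim' : ((Nat.card (V × Fin 3 ⊕ ρ) + 1 : ℕ) : WithBot ℕ∞) ≤
      ringKrullDim (MvPowerSeries (Coord V ρ) O ⧸ q.comap θ) := by
    rwa [ringKrullDim_comap_eq θ fun x => (hθ x).imp fun _ h => hRq h]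
  have haq : θ a ∈ q := by simpa using q.sub_mem hf (hRq ha)
  have h0 : ψ (θ a) = 0 := by
    rw [← RingHom.comp_apply, hev]
    exact ev_eq_zero_of_specialPrime (η := η) (φ := φ) (fun v => hφ _ (hηm v)) h2
      (fun v h => hη0 v (hφinj (by rw [map_zero]; exact Subtype.ext h))) hφinj hφ hηm
      (fun r hr => hrel r hr) hdim' (Ideal.mem_comap.mpr haq) _ hψX
      fun r hr => (RingHom.congr_fun hev r).symm.trans (hψrel r hr)
  have h1 : ψ (f - θ a) = 0 := hψR ha
  rw [map_sub, h0, sub_zero] at h1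
  exact h1

end End

end Fermat.Agent.RT.Algebra
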