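import Fermat.Agent.RT.Ihara.Flip
import Mathlib.RingTheory.KrullDimension.Regular

/-!
# The induction step along a chain of levels

A prime containing the relations of a pattern and an equation `y` can be chosen away from the
smaller loci; below it the flip gives a prime of full dimension, which contains no element acting
as a nonzero scalar.
-/

set_option autoImplicit false

namespace Fermat.Agent.RT.Algebra

open IsLocalRing Submodule Fermat.Agent.RT.Ihara
open scoped Pointwise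

section Primes

variable {Λ : Type*} [CommRing Λ]

/-- A chain of primes above `I` bounds the dimension of the quotient from below. -/
theorem length_le_ringKrullDim_quotient {I : Ideal Λ} (l : LTSeries (PrimeSpectrum Λ))
    (h : I ≤ l.head.asIdeal) : (l.length : WithBot ℕ∞) ≤ ringKrullDim (Λ ⧸ I) := by
  rw [ringKrullDim_quotient]
  refine Order.le_krullDim_iff.mpr ⟨⟨l.length, fun i => ⟨l i, ?_⟩, fun i => l.step i⟩, rfl⟩
  rw [PrimeSpectrum.mem_zeroLocus, SetLike.coe_subset_coe]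
  exact h.trans (l.monotone (Fin.zero_le i) : l 0 ≤ l i)

/-- The dimension of a quotient is monotone. -/
theorem ringKrullDim_quotient_mono {I J : Ideal Λ} (h : I ≤ J) :
    ringKrullDim (Λ ⧸ J) ≤ ringKrullDim (Λ ⧸ I) :=
  ringKrullDim_le_of_surjective _ (Ideal.Quotient.factor_surjective h)

/-- A homomorphism surjective modulo `J` bounds the dimension of `Λ / J`. -/
theorem ringKrullDim_le_of_surjective_mod {A : Type*} [CommRing A] (θ : A →+* Λ) {J : Ideal Λ}
    {R : Ideal A} (hθ : ∀ x, ∃ a, x - θ a ∈ J) (hR : ∀ a ∈ R, θ a ∈ J) :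
    ringKrullDim (Λ ⧸ J) ≤ ringKrullDim (A ⧸ R) := by
  refine ringKrullDim_le_of_surjective (Ideal.quotientMap J θ hR) fun y => ?_
  obtain ⟨x, rfl⟩ := Ideal.Quotient.mk_surjective y
  obtain ⟨a, ha⟩ := hθ x
  exact ⟨Ideal.Quotient.mk R a, (Ideal.Quotient.eq.mpr ha).symm⟩

variable [IsNoetherianRing Λ] [IsLocalRing Λ]

/-- **The choice of the prime**: above `I` and `y`, of dimension at least `d`, and away from
finitely many smaller loci. -/
theorem exists_prime_avoid {I : Ideal Λ} (hI : I ≠ ⊤) {y : Λ} (hy : y ∈ maximalIdeal Λ) {d : ℕ}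
    (hdim : ((d + 1 : ℕ) : WithBot ℕ∞) ≤ ringKrullDim (Λ ⧸ I)) {α : Type*} (J : α → Ideal Λ)
    (hJ : ∀ a, ringKrullDim (Λ ⧸ (I ⊔ Ideal.span {y} ⊔ J a)) < (d : WithBot ℕ∞)) :
    ∃ P : Ideal Λ, P.IsPrime ∧ I ≤ P ∧ y ∈ P ∧ (∀ a, ¬ J a ≤ P) ∧
      (d : WithBot ℕ∞) ≤ ringKrullDim (Λ ⧸ P) := by
  have : Nontrivial (Λ ⧸ I) := Ideal.Quotient.nontrivial_iff.mpr hI
  have : IsLocalRing (Λ ⧸ I) := IsLocalRing.of_surjective' _ Ideal.Quotient.mk_surjective
  have hyI : Ideal.Quotient.mk I y ∈ maximalIdeal (Λ ⧸ I) :=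
    (IsLocalRing.eq_maximalIdeal (Ideal.comap_isMaximal_of_surjective (Ideal.Quotient.mk I)
      Ideal.Quotient.mk_surjective (K := maximalIdeal (Λ ⧸ I)))).ge hy
  have h1 := hdim.trans (ringKrullDim_le_ringKrullDim_quotSMulTop_succ hyI)
  have h2 : ringKrullDim ((Λ ⧸ I) ⧸ Ideal.Quotient.mk I y • (⊤ : Ideal (Λ ⧸ I))) ≤
      ringKrullDim (Λ ⧸ (I ⊔ Ideal.span {y})) := by
    rw [← ideal_span_singleton_smul, smul_eq_mul, Ideal.mul_top, ← Set.image_singleton,
      ← Ideal.map_span]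
    exact (ringKrullDim_eq_of_ringEquiv (DoubleQuot.quotQuotEquivQuotSup I _)).le
  have h3 : (d : WithBot ℕ∞) ≤ ringKrullDim (Λ ⧸ (I ⊔ Ideal.span {y})) := by
    have h4 := h1.trans (add_le_add h2 le_rfl)
    generalize ringKrullDim (Λ ⧸ (I ⊔ Ideal.span {y})) = e at h4
    induction e with
    | bot => simp at h4
    | coe e =>
      rw [show ((d + 1 : ℕ) : WithBot ℕ∞) = ((d : ℕ∞) + 1 : ℕ∞) by push_cast; rfl] at h4
      exact WithBot.coe_le_coe.mpr ((WithTop.add_le_add_iff_right WithTop.one_ne_top).mp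
        (WithBot.coe_le_coe.mp (h4.trans_eq (by push_cast; rfl))))
  rw [ringKrullDim_quotient] at h3
  obtain ⟨l, hl⟩ := Order.le_krullDim_iff.mp h3
  let l' : LTSeries (PrimeSpectrum Λ) := ⟨l.length, fun i => (l i).1, fun i => l.step i⟩
  have hP : I ⊔ Ideal.span {y} ≤ l'.head.asIdeal :=
    (PrimeSpectrum.mem_zeroLocus _ _).mp l.head.2
  refine ⟨l'.head.asIdeal, l'.head.2, le_sup_left.trans hP,
    hP (Ideal.mem_sup_right (Ideal.mem_span_singleton_self y)), fun a ha => ?_, ?_⟩
  · exact absurd (hJ a) (not_lt.mpr (hl ▸ length_le_ringKrullDim_quotient l' (sup_le hP ha)))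
  · exact hl ▸ length_le_ringKrullDim_quotient l' le_rfl

end Primes

section Quotient

variable {Λ S : Type*} [CommRing Λ] [CommRing S] [IsNoetherianRing S]
  {M : Type*} [AddCommGroup M] [Module Λ M] [Module S M] [SMulCommClass Λ S M] [Module.Finite Λ M]
  [Module.Finite S M]

/-- A minimal prime of the support of a quotient torsion free over `S` has the dimension of `S`
and contains no element acting as a nonzero scalar. -/
theorem minimalPrime_quotient_spec {W : Submodule Λ M} (hW : ∀ (s : S), ∀ m ∈ W, s • m ∈ W)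
    (htf : ∀ (s : S) (m : M), s • m ∈ W → s = 0 ∨ m ∈ W) {q : Ideal Λ}
    (hq : q ∈ (Module.annihilator Λ (M ⧸ W)).minimalPrimes) :
    ringKrullDim (Λ ⧸ q) = ringKrullDim S ∧
      ∀ (a : Λ) (s : S), s ≠ 0 → (∀ m : M, a • m = s • m) → a ∉ q := by
  have : SMulCommClass S Λ M := SMulCommClass.symm ..
  let φ : S →+* Module.End Λ (M ⧸ W) :=
    { toFun := fun s => W.mapQ W (Module.toModuleEnd Λ (S := S) M s) (fun m hm => hW s m hm)
      map_one' := Submodule.linearMap_qext _ (LinearMap.ext fun m => by simp)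
      map_mul' := fun s t => Submodule.linearMap_qext _ (LinearMap.ext fun m => by simp [mul_smul])
      map_zero' := Submodule.linearMap_qext _ (LinearMap.ext fun m => by simp)
      map_add' := fun s t => Submodule.linearMap_qext _ (LinearMap.ext fun m =>
        by simp [add_smul]) }
  let _ : Module S (M ⧸ W) := Module.compHom (M ⧸ W) φ
  have hmk : ∀ (s : S) (m : M),
      s • Submodule.Quotient.mk (p := W) m = Submodule.Quotient.mk (s • m) := fun _ _ => rfl
  have : SMulCommClass Λ S (M ⧸ W) := ⟨fun a s x => ((φ s).map_smul a x).symm⟩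
  let π : M →ₗ[S] M ⧸ W :=
    { toFun := Submodule.Quotient.mk, map_add' := fun _ _ => rfl, map_smul' := fun _ _ => rfl }
  have : Module.Finite S (M ⧸ W) :=
    Module.Finite.of_surjective π (Submodule.Quotient.mk_surjective W)
  have htf' : ∀ (s : S) (x : M ⧸ W), s • x = 0 → s = 0 ∨ x = 0 := fun s x hx => by
    obtain ⟨m, rfl⟩ := Submodule.Quotient.mk_surjective W x
    rw [hmk, Submodule.Quotient.mk_eq_zero] at hx
    exact (htf s m hx).imp_right (Submodule.Quotient.mk_eq_zero W).mpr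
  refine ⟨(minimalPrime_spec htf' hq).1, fun a s hs ha =>
    IsSMulRegular.notMem_of_mem_minimalPrimes (fun x y hxy => ?_) hq⟩
  obtain ⟨x, rfl⟩ := Submodule.Quotient.mk_surjective W x
  obtain ⟨y, rfl⟩ := Submodule.Quotient.mk_surjective W y
  have h : s • Submodule.Quotient.mk (p := W) (x - y) = 0 := by
    rw [hmk, ← ha, Submodule.Quotient.mk_smul, Submodule.Quotient.mk_sub, smul_sub, sub_eq_zero]
    exact hxy
  rw [← sub_eq_zero, ← Submodule.Quotient.mk_sub]
  exact (htf' s _ h).resolve_left hs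

end Quotient

section Flip

variable {Λ S : Type*} [CommRing Λ] [CommRing S] [IsNoetherianRing S] [IsDomain S] [IsLocalRing S]
  {N M : Type*} [AddCommGroup N] [Module Λ N] [Module S N] [Module.Finite Λ N]
  [Module.Finite S N] [Module.Free S N] [SMulCommClass Λ S N]
  [AddCommGroup M] [Module Λ M] [Module S M] [SMulCommClass Λ S M] [Module.Finite Λ M]
  [Module.Finite S M] [Module.Free S M]
  {δ : N × N →ₗ[Λ] M} {δs : M →ₗ[Λ] N × N} {c T : Λ} {k : ℕ}

omit [SMulCommClass Λ S N] in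
/-- The flip, for a prime containing one factor `T + μ c` of `T ^ 2 - c ^ 2` and not the other. -/
theorem exists_prime_flip_sign (hS : ∀ (s : S) u, δ (s • u) = s • δ u)
    (hSs : ∀ (s : S) m, δs (s • m) = s • δs m)
    (hinj : ∀ u, δ u ∈ maximalIdeal S • (⊤ : Submodule S M) →
      u ∈ maximalIdeal S • (⊤ : Submodule S (N × N)))
    (hsurj : ∀ w, ∃ m, δs m - w ∈ maximalIdeal S • (⊤ : Submodule S (N × N)))
    (hδ : δs ∘ₗ δ = crossMap c T) (hker : ∀ m, δs m = 0 → (T ^ 2 - c ^ 2) ^ k • m = 0)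
    {P : Ideal Λ} [P.IsPrime] (hN : Module.annihilator Λ N ≤ P) {μ : Λ} (hμ : μ * μ = 1)
    (hy : T + μ * c ∈ P) (hy' : T - μ * c ∉ P) :
    ∃ q : Ideal Λ, q.IsPrime ∧ q ≤ P ∧ T + μ * c ∈ q ∧ Module.annihilator Λ M ≤ q ∧
      ringKrullDim (Λ ⧸ q) = ringKrullDim S ∧
      ∀ (a : Λ) (s : S), s ≠ 0 → (∀ m : M, a • m = s • m) → a ∉ q := by
  let δ' : N × N →ₗ[S] M := { toFun := δ, map_add' := map_add δ, map_smul' := hS }
  let δs' : M →ₗ[S] N × N := { toFun := δs, map_add' := map_add δs, map_smul' := hSs }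
  have hfac : T ^ 2 - c ^ 2 = (T + μ * c) * (T - μ * c) := by linear_combination c ^ 2 * hμ
  obtain ⟨g, hg⟩ := exists_leftInverse_of_injective_mod δ' hinj
  obtain ⟨q, hq, hle, hyq, hM⟩ := exists_minimalPrime_coker hN
    (hfac ▸ P.mul_mem_right _ hy) hδ (surjective_of_surjective_mod δs' hsurj) hker
  obtain ⟨hdim, hscal⟩ := minimalPrime_quotient_spec
    (S := S) (W := LinearMap.range δ) (fun s m hm => by
      obtain ⟨u, rfl⟩ := hm; exact ⟨s • u, hS s u⟩)
    (fun s m hm => or_iff_not_imp_left.mpr fun hs => by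
      obtain ⟨u, hu⟩ := hm
      refine ⟨g m, smul_right_injective M hs ?_⟩
      show s • δ (g m) = s • m
      rw [← hS, ← map_smul, ← hu]
      exact congrArg δ (LinearMap.congr_fun hg u)) hq
  exact ⟨q, hq.1.1, hle,
    (hq.1.1.mem_or_mem (hfac ▸ hyq)).resolve_right fun h => hy' (hle h), hM, hdim, hscal⟩

end Flip

end Fermat.Agent.RT.Algebra
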