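import Fermat.Agent.RT.Algebra.LimitSystem

/-!
# Limits of presentations of patterns and of points
-/

set_option autoImplicit false

noncomputable section

namespace Fermat.Agent.RT.Algebra

open IsLocalRing

variable {A B : Type*} [CommRing A] [IsLocalRing A] [IsNoetherianRing A]
  [IsAdicComplete (maximalIdeal A) A] [Finite (ResidueField A)]
  [CommRing B] [IsLocalRing B] [IsNoetherianRing B] [IsAdicComplete (maximalIdeal B) B]
  [Finite (ResidueField B)]

/-- Presentations `θ n` of the quotients by `I n`, killing `R`, have a limit presenting the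
quotient by the limit ideal and killing `R`. -/
theorem exists_limit_presentation (U : Ultrafilter ℕ) (θ : ℕ → A →+* B)
    (hθ : ∀ n, ∀ a ∈ maximalIdeal A, θ n a ∈ maximalIdeal B) (I : ℕ → Ideal B)
    (hsurj : ∀ n x, ∃ a, x - θ n a ∈ I n) {R : Ideal A} (hR : ∀ n, ∀ r ∈ R, θ n r ∈ I n) :
    ∃ θ' : A →+* B, (∀ a ∈ maximalIdeal A, θ' a ∈ maximalIdeal B) ∧
      (∀ (a : ℕ → A) (b : A), Conv U a b → Conv U (fun n => θ n (a n)) (θ' b)) ∧
      (∀ x, ∃ a, x - θ' a ∈ limitIdeal U I) ∧ ∀ r ∈ R, θ' r ∈ limitIdeal U I := by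
  obtain ⟨θ', hm, hc⟩ := exists_limit_hom U θ hθ
  refine ⟨θ', hm, hc, fun x => ?_, fun r hr => ⟨fun n => θ n r, fun n => hR n r hr,
    hc _ r (conv_const r)⟩⟩
  choose a ha using fun n => hsurj n x
  exact ⟨clim U a, fun n => x - θ n (a n), ha, (conv_const x).sub (hc a _ (conv_clim a))⟩

omit [IsNoetherianRing A] [IsAdicComplete (maximalIdeal A) A] [Finite (ResidueField A)] in
/-- Points killing `I n` have a limit killing the limit ideal. -/
theorem exists_limit_point (U : Ultrafilter ℕ) (x : ℕ → A →+* B)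
    (hx : ∀ n, ∀ a ∈ maximalIdeal A, x n a ∈ maximalIdeal B) (I : ℕ → Ideal A)
    (hI : ∀ n, ∀ a ∈ I n, x n a = 0) :
    ∃ x' : A →+* B, (∀ a ∈ maximalIdeal A, x' a ∈ maximalIdeal B) ∧
      (∀ (a : ℕ → A) (b : A), Conv U a b → Conv U (fun n => x n (a n)) (x' b)) ∧
      limitIdeal U I ≤ RingHom.ker x' := by
  obtain ⟨x', hm, hc⟩ := exists_limit_hom U x hx
  refine ⟨x', hm, hc, fun a ⟨z, hz, hza⟩ => RingHom.mem_ker.mpr ?_⟩
  have h := hc z a hza
  simp only [fun n => hI n _ (hz n)] at h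
  exact h.unique (conv_const 0)

end Fermat.Agent.RT.Algebra
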