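import Fermat.Agent.RT.Algebra.LimitSystem

/-!
# Parameters, dimensions and density of points

The dimension of a power series ring; a quotient in which the parameters cut out the closed point
is finite over them; the points of a prime finite over the parameters and meeting them in zero
detect membership in it.
-/

set_option autoImplicit false

noncomputable section

namespace Fermat.Agent.RT.Algebra

open MvPowerSeries IsLocalRing Fermat.Agent.RT.Germ

variable {O : Type*} [CommRing O] [IsDomain O] [IsDiscreteValuationRing O]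
  [IsAdicComplete (maximalIdeal O) O]

omit [IsAdicComplete (maximalIdeal O) O] in
theorem le_ringKrullDim_mvPowerSeries_fin (n : ℕ) :
    ((n + 1 : ℕ) : WithBot ℕ∞) ≤ ringKrullDim (MvPowerSeries (Fin n) O) := by
  induction n with
  | zero =>
    have hsurj : Function.Surjective (constantCoeff (σ := Fin 0) (R := O)) :=
      fun c => ⟨C c, constantCoeff_C c⟩
    rw [zero_add, Nat.cast_one, ← IsDiscreteValuationRing.ringKrullDim_eq_one (R := O)]
    exact ringKrullDim_le_of_surjective _ hsurj
  | succ n ih =>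
    let e : Fin n ↪ Fin (n + 1) := Fin.castSuccEmb
    have hX : killCompl (R := O) e (X (Fin.last n)) = 0 := killCompl_X_eq_zero (by
      rintro ⟨i, hi⟩
      exact (Fin.castSucc_lt_last i).ne hi)
    have h := ringKrullDim_succ_le_of_surjective (killCompl (R := O) e).toRingHom
      (fun p => ⟨rename e p, killCompl_rename_app p⟩)
      (r := X (Fin.last n)) (mem_nonZeroDivisors_of_ne_zero fun h => by
        simpa [coeff_X] using congrArg (coeff (Finsupp.single (Fin.last n) 1)) h) hX
    refine le_trans ?_ h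
    rw [Nat.cast_add, Nat.cast_one]
    exact add_le_add ih le_rfl

omit [IsAdicComplete (maximalIdeal O) O] in
/-- The dimension of a power series ring over a discrete valuation ring. -/
theorem ringKrullDim_mvPowerSeries (σ : Type*) [Finite σ] :
    ringKrullDim (MvPowerSeries σ O) = ((Nat.card σ + 1 : ℕ) : WithBot ℕ∞) := by
  classical
  have := Fintype.ofFinite σ
  refine le_antisymm ?_ ?_
  · obtain ⟨π, hπ⟩ := IsDiscreteValuationRing.exists_irreducible O
    set s : Set (MvPowerSeries σ O) := insert (C π) (Set.range X)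
    have hs : s.Finite := (Set.finite_range _).insert _
    have hm : maximalIdeal (MvPowerSeries σ O) = Ideal.span s := by
      refine le_antisymm (fun f hf => ?_) (Ideal.span_le.mpr ?_)
      · obtain ⟨g, hg⟩ := (Ideal.mem_span_range_iff_exists_fun).mp
          (Patching.sub_C_mem_span_range_X f)
        rw [show f = ∑ i, g i * X i + C (constantCoeff f) by rw [hg]; ring]
        refine add_mem (sum_mem fun i _ => Ideal.mul_mem_left _ _
          (Ideal.subset_span (Set.mem_insert_of_mem _ ⟨i, rfl⟩))) ?_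
        have hc : constantCoeff f ∈ Ideal.span {π} := hπ.maximalIdeal_eq ▸
          (IsLocalRing.mem_maximalIdeal _).mpr fun h => (IsLocalRing.mem_maximalIdeal f).mp hf
            (MvPowerSeries.isUnit_iff_constantCoeff.mpr h)
        obtain ⟨k, hk⟩ := Ideal.mem_span_singleton'.mp hc
        rw [← hk, map_mul]
        exact Ideal.mul_mem_left _ _ (Ideal.subset_span (Set.mem_insert _ _))
      · rintro x (rfl | ⟨i, rfl⟩)
        · exact (IsLocalRing.mem_maximalIdeal _).mpr fun h => hπ.not_isUnit (by
            simpa using MvPowerSeries.isUnit_iff_constantCoeff.mp h)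
        · exact span_X_le_maximalIdeal (Ideal.subset_span ⟨i, rfl⟩)
    refine (ringKrullDim_le_spanFinrank_maximalIdeal _).trans ?_
    rw [hm]
    refine (Nat.cast_le (α := WithBot ℕ∞)).mpr
      ((Submodule.spanFinrank_span_le_ncard_of_finite hs).trans
      ((Set.ncard_insert_le _ _).trans (Nat.add_le_add_right ?_ 1)))
    rw [← Set.image_univ, ← Set.ncard_univ]
    exact Set.ncard_image_le Set.finite_univ
  · obtain ⟨eqv⟩ : Nonempty (σ ≃ Fin (Nat.card σ)) := ⟨Finite.equivFin σ⟩
    rw [ringKrullDim_eq_of_ringEquiv (MvPowerSeries.renameEquiv O eqv).toRingEquiv]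
    exact le_ringKrullDim_mvPowerSeries_fin _

variable [Finite (ResidueField O)] {σ τ : Type*} [Finite σ] [Finite τ]

/-- A quotient of the coordinates in which the parameters cut out the closed point is finite
over them. -/
theorem finite_of_params (θ : MvPowerSeries τ O →+* MvPowerSeries σ O)
    (hθm : ∀ a ∈ maximalIdeal (MvPowerSeries τ O), θ a ∈ maximalIdeal (MvPowerSeries σ O))
    {J : Ideal (MvPowerSeries σ O)}
    (h : ∀ P : Ideal (MvPowerSeries σ O), P.IsPrime → J ≤ P →
      (∀ a ∈ maximalIdeal (MvPowerSeries τ O), θ a ∈ P) → ∀ c, (X c : MvPowerSeries σ O) ∈ P)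
    (hC : ∀ o ∈ maximalIdeal O, ∃ a ∈ maximalIdeal (MvPowerSeries τ O), θ a = C o) :
    ((Ideal.Quotient.mk J).comp θ).Finite := by
  classical
  have := Fintype.ofFinite σ
  set S0 := MvPowerSeries τ O
  set Λ := MvPowerSeries σ O
  set N := Λ ⧸ J
  let _ : Algebra S0 N := ((Ideal.Quotient.mk J).comp θ).toAlgebra
  show Module.Finite S0 N
  rcases subsingleton_or_nontrivial N with hN | hN
  · infer_instance
  have : IsLocalRing N := IsLocalRing.of_surjective' _ Ideal.Quotient.mk_surjective
  have : IsAdicComplete (maximalIdeal S0) S0 := isAdicComplete_mvPowerSeries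
  have : IsHausdorff (maximalIdeal S0) N := IsHausdorff.of_map (S := N) (J := maximalIdeal N) (by
    rw [Ideal.map_le_iff_le_comap]
    exact fun a ha => (IsLocalRing.eq_maximalIdeal (Ideal.comap_isMaximal_of_surjective
      (Ideal.Quotient.mk J) Ideal.Quotient.mk_surjective (K := maximalIdeal N))).ge (hθm a ha))
  -- `J` and the parameters generate an ideal whose radical is the maximal ideal.
  set J0 := J ⊔ (maximalIdeal S0).map θ
  have hrad : maximalIdeal Λ ≤ J0.radical := by
    rw [Ideal.radical_eq_sInf, le_sInf_iff]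
    rintro P ⟨hJP, hP⟩
    have hθP : ∀ a ∈ maximalIdeal S0, θ a ∈ P := fun a ha =>
      hJP (Ideal.mem_sup_right (Ideal.mem_map_of_mem θ ha))
    have hX := h P hP (le_sup_left.trans hJP) hθP
    intro f hf
    obtain ⟨g, hg⟩ := (Ideal.mem_span_range_iff_exists_fun).mp (Patching.sub_C_mem_span_range_X f)
    rw [show f = ∑ i, g i * X i + C (constantCoeff f) by rw [hg]; ring]
    refine add_mem (sum_mem fun i _ => Ideal.mul_mem_left _ _ (hX i)) ?_
    obtain ⟨a, ha, hau⟩ := hC _ ((IsLocalRing.mem_maximalIdeal _).mpr fun hu =>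
      (IsLocalRing.mem_maximalIdeal f).mp hf (MvPowerSeries.isUnit_iff_constantCoeff.mpr hu))
    exact hau ▸ hθP a ha
  -- So the quotient by the parameters is finite; conclude by completeness.
  obtain ⟨K, hK⟩ := Ideal.exists_pow_le_of_le_radical_of_fg hrad (IsNoetherian.noetherian _)
  have : Finite (ResidueField Λ) := finite_residueField_mvPowerSeries
  have : Finite (Λ ⧸ maximalIdeal Λ ^ K) := finite_quotient_pow K
  have hsurj : Function.Surjective (fun x : Λ ⧸ maximalIdeal Λ ^ K =>
      (Submodule.mkQ (maximalIdeal S0 • ⊤ : Submodule S0 N)) (Ideal.Quotient.mk J x.out)) := by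
    intro y
    obtain ⟨z, rfl⟩ := Submodule.mkQ_surjective _ y
    obtain ⟨f, rfl⟩ := Ideal.Quotient.mk_surjective z
    refine ⟨Ideal.Quotient.mk _ f, ?_⟩
    rw [← sub_eq_zero, ← map_sub, Submodule.mkQ_apply, Submodule.Quotient.mk_eq_zero, ← map_sub,
      Ideal.smul_top_eq_map, Submodule.restrictScalars_mem]
    have hd : (Ideal.Quotient.mk (maximalIdeal Λ ^ K) f).out - f ∈ J0 :=
      hK (Ideal.Quotient.eq.mp (Quotient.out_eq _))
    obtain ⟨u, hu, w, hw, huw⟩ := Submodule.mem_sup.mp hd
    rw [← huw, map_add, Ideal.Quotient.eq_zero_iff_mem.mpr hu, zero_add]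
    have := Ideal.mem_map_of_mem (Ideal.Quotient.mk J) hw
    rwa [Ideal.map_map] at this
  have : Finite (N ⧸ (maximalIdeal S0 • ⊤ : Submodule S0 N)) := Finite.of_surjective _ hsurj
  exact finite_of_quotient (maximalIdeal S0)

omit [IsDomain O] [IsDiscreteValuationRing O] [Finite σ] [Finite τ] in
omit [IsAdicComplete (maximalIdeal O) O] [Finite (ResidueField O)] in
/-- A quotient finite over the parameters has at most their dimension. -/
theorem ringKrullDim_le_of_params (θ : MvPowerSeries τ O →+* MvPowerSeries σ O)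
    {J : Ideal (MvPowerSeries σ O)} (hfin : ((Ideal.Quotient.mk J).comp θ).Finite) :
    ringKrullDim (MvPowerSeries σ O ⧸ J) ≤ ringKrullDim (MvPowerSeries τ O) := by
  let _ : Algebra (MvPowerSeries τ O) (MvPowerSeries σ O ⧸ J) :=
    ((Ideal.Quotient.mk J).comp θ).toAlgebra
  have : Module.Finite (MvPowerSeries τ O) (MvPowerSeries σ O ⧸ J) := hfin
  exact ringKrullDim_le_of_isIntegral

omit [IsAdicComplete (maximalIdeal O) O] in
omit [Finite σ] in
omit [Finite (ResidueField O)] in
/-- A prime of full dimension meets the parameters in zero. -/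
theorem comap_eq_bot_of_ringKrullDim_le (θ : MvPowerSeries τ O →+* MvPowerSeries σ O)
    {C : Ideal (MvPowerSeries σ O)} (hfin : ((Ideal.Quotient.mk C).comp θ).Finite)
    (hdim : ringKrullDim (MvPowerSeries τ O) ≤ ringKrullDim (MvPowerSeries σ O ⧸ C)) :
    C.comap θ = ⊥ := by
  by_contra hne
  set S0 := MvPowerSeries τ O
  obtain ⟨c, hc, hc0⟩ := Submodule.exists_mem_ne_zero_of_ne_bot hne
  let f0 : S0 ⧸ C.comap θ →+* MvPowerSeries σ O ⧸ C := Ideal.quotientMap C θ le_rfl
  have hf0 : f0.Finite := RingHom.Finite.of_comp_finite (f := Ideal.Quotient.mk (C.comap θ)) (by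
    rw [Ideal.quotientMap_comp_mk]
    exact hfin)
  let _ : Algebra (S0 ⧸ C.comap θ) (MvPowerSeries σ O ⧸ C) := f0.toAlgebra
  have : Module.Finite (S0 ⧸ C.comap θ) (MvPowerSeries σ O ⧸ C) := hf0
  have h1 : ringKrullDim (MvPowerSeries σ O ⧸ C) ≤ ringKrullDim (S0 ⧸ C.comap θ) :=
    ringKrullDim_le_of_isIntegral
  have h4 : ringKrullDim (S0 ⧸ C.comap θ) + 1 ≤ ringKrullDim S0 :=
    ringKrullDim_succ_le_of_surjective (Ideal.Quotient.mk _) Ideal.Quotient.mk_surjective
      (r := c) (mem_nonZeroDivisors_of_ne_zero hc0) (Ideal.Quotient.eq_zero_iff_mem.mpr hc)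
  have h6 : ringKrullDim S0 + 1 ≤ ringKrullDim S0 :=
    (add_le_add (hdim.trans h1) le_rfl).trans h4
  rw [ringKrullDim_mvPowerSeries τ] at h6
  exact absurd h6 (by norm_cast; omega)

variable {K : Type*} [NontriviallyNormedField K] [IsUltrametricDist K] [CompleteSpace K]
  [IsAlgClosed K]

omit [IsAdicComplete (maximalIdeal O) O] in
omit [Finite (ResidueField O)] in
/-- **Density of points**: outside a prime finite over the parameters and meeting them in zero, a
series is nonzero at some point of the prime. -/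
theorem exists_point (φ : O →+* ball1 K) (hφinj : Function.Injective φ)
    (hφ : ∀ c ∈ maximalIdeal O, ‖(φ c : K)‖ < 1) (θ : MvPowerSeries τ O →+* MvPowerSeries σ O)
    (hθC : ∀ o, θ (C o) = C o) {P : Ideal (MvPowerSeries σ O)} [P.IsPrime]
    (hfin : ((Ideal.Quotient.mk P).comp θ).Finite) (hbot : P.comap θ = ⊥)
    {f : MvPowerSeries σ O} (hf : f ∉ P) :
    ∃ (x : σ → ball1 K) (hx : ∀ c, ‖(x c : K)‖ < 1),
      (∀ g ∈ P, ev φ x hx g = 0) ∧ ev φ x hx f ≠ 0 := by
  let S := MvPowerSeries τ O
  let Λ := MvPowerSeries σ O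
  let A := Λ ⧸ P
  let _ : Algebra S A := ((Ideal.Quotient.mk P).comp θ).toAlgebra
  have : Module.Finite S A := hfin
  have hinj : Function.Injective (algebraMap S A) := by
    rw [injective_iff_map_eq_zero]
    intro s hs
    rw [← Ideal.mem_bot, ← hbot, Ideal.mem_comap]
    exact Ideal.Quotient.eq_zero_iff_mem.mp hs
  obtain ⟨x, hx, hker, hev⟩ := exists_ev_ne_zero_of_integral φ hφinj hφ hinj (Ideal.Quotient.mk P)
    (RingHom.isIntegral_of_surjective _ Ideal.Quotient.mk_surjective)
    (fun c => congrArg (Ideal.Quotient.mk P) (hθC c).symm)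
    (f := f) fun h => hf (Ideal.Quotient.eq_zero_iff_mem.mp h)
  exact ⟨x, hx, fun g hg => hker g (Ideal.Quotient.eq_zero_iff_mem.mpr hg), hev⟩

end Fermat.Agent.RT.Algebra
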