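import Mathlib.RingTheory.AdicCompletion.Functoriality
import Mathlib.RingTheory.PicardGroup
import Mathlib.Tactic

/-!
# Complete Nakayama, Krull dimension of integral extensions, integrality of commuting
endomorphisms
-/

set_option autoImplicit false

namespace Fermat.Agent.RT.Algebra

open Submodule

/-- A finite free module over a precomplete ring is precomplete. -/
theorem isPrecomplete_pi {R : Type*} [CommRing R] (I : Ideal R) [IsPrecomplete I R] (k : ℕ) :
    IsPrecomplete I (Fin k → R) := by
  classical
  refine ⟨fun f hf => ?_⟩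
  have hcoord : ∀ i, ∀ {m n : ℕ}, m ≤ n → f m i ≡ f n i [SMOD (I ^ m • ⊤ : Submodule R R)] :=
    fun i m n hmn => by
      have h := SModEq.sub_mem.mp (hf hmn)
      refine SModEq.sub_mem.mpr ?_
      have := Submodule.mem_map_of_mem (f := LinearMap.proj (R := R) (φ := fun _ : Fin k => R) i) h
      rw [Submodule.map_smul''] at this
      exact Submodule.smul_mono le_rfl le_top this
  choose L hL using fun i => IsPrecomplete.prec (I := I) inferInstance (hcoord i)
  refine ⟨L, fun n => SModEq.sub_mem.mpr ?_⟩
  rw [← Finset.univ_sum_single (f n - L)]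
  refine Submodule.sum_mem _ fun i _ => ?_
  have h := Submodule.mem_map_of_mem
    (f := LinearMap.single R (fun _ : Fin k => R) i) (SModEq.sub_mem.mp (hL i n))
  rw [Submodule.map_smul''] at h
  exact Submodule.smul_mono le_rfl le_top h

/-- Complete Nakayama. -/
theorem finite_of_quotient {R N : Type*} [CommRing R] [AddCommGroup N] [Module R N] (I : Ideal R)
    [IsPrecomplete I R] [IsHausdorff I N]
    [Module.Finite R (N ⧸ (I • ⊤ : Submodule R N))] : Module.Finite R N := by
  obtain ⟨k, g, hg⟩ := Module.Finite.exists_fin (R := R) (M := N ⧸ (I • ⊤ : Submodule R N))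
  choose g' hg' using fun i => Submodule.mkQ_surjective (I • ⊤ : Submodule R N) (g i)
  have := isPrecomplete_pi I k
  let F : (Fin k → R) →ₗ[R] N := Fintype.linearCombination R g'
  have hsurj : Function.Surjective (mkQ (I • ⊤ : Submodule R N) ∘ₗ F) := by
    rw [← LinearMap.range_eq_top, eq_top_iff, ← hg, Submodule.span_le]
    rintro _ ⟨i, rfl⟩
    exact ⟨Pi.single i 1, by simp [F, Fintype.linearCombination_apply_single, ← hg']⟩
  exact Module.Finite.of_surjective F (surjective_of_mkQ_comp_surjective hsurj)

variable {S A : Type*} [CommRing S] [CommRing A] [Algebra S A] [Algebra.IsIntegral S A]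

/-- An integral extension does not raise the dimension. -/
theorem ringKrullDim_le_of_isIntegral : ringKrullDim A ≤ ringKrullDim S := by
  refine Order.krullDim_le_of_strictMono
    (fun p => PrimeSpectrum.comap (algebraMap S A) p) fun p q hpq => ?_
  obtain ⟨x, hxq, hxp⟩ := SetLike.exists_of_lt (show p.asIdeal < q.asIdeal from hpq)
  exact Ideal.comap_lt_comap_of_integral_mem_sdiff (hI := p.2) hpq.le ⟨hxq, hxp⟩
    (Algebra.IsIntegral.isIntegral x)

/-- An injective integral extension does not lower the dimension. -/
theorem le_ringKrullDim_of_isIntegral (hinj : Function.Injective (algebraMap S A)) :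
    ringKrullDim S ≤ ringKrullDim A := by
  have lift : ∀ p : PrimeSpectrum S, ∃ q : PrimeSpectrum A,
      PrimeSpectrum.comap (algebraMap S A) q = p := fun p => by
    obtain ⟨Q, -, hQ, hQp⟩ := Ideal.exists_ideal_over_prime_of_isIntegral p.asIdeal (⊥ : Ideal A)
      (by rw [← RingHom.ker_eq_comap_bot,
        (RingHom.injective_iff_ker_eq_bot _).mp hinj]; exact bot_le)
    exact ⟨⟨Q, hQ⟩, PrimeSpectrum.ext hQp⟩
  refine iSup_le fun l => ?_
  suffices H : ∃ l' : LTSeries (PrimeSpectrum A),
      l'.length = l.length ∧ PrimeSpectrum.comap (algebraMap S A) l'.last = l.last by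
    obtain ⟨l', hl, -⟩ := H
    exact le_iSup_of_le l' (by rw [hl])
  induction l using RelSeries.inductionOn' with
  | singleton p =>
    obtain ⟨q, hq⟩ := lift p
    exact ⟨RelSeries.singleton _ q, rfl, by simpa using hq⟩
  | snoc l p hlt ih =>
    obtain ⟨l', hlen, hlast⟩ := ih
    have hle : l'.last.asIdeal.comap (algebraMap S A) ≤ p.asIdeal := by
      have h : (l.last : PrimeSpectrum S).asIdeal ≤ p.asIdeal := le_of_lt hlt
      rwa [← hlast] at h
    obtain ⟨Q, hQle, hQ, hQp⟩ :=
      Ideal.exists_ideal_over_prime_of_isIntegral p.asIdeal l'.last.asIdeal hle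
    have hlt' : l'.last < (⟨Q, hQ⟩ : PrimeSpectrum A) := by
      refine lt_of_le_of_ne (show l'.last.asIdeal ≤ Q from hQle) fun h => ?_
      have h2 : (l.last : PrimeSpectrum S) = p := by
        rw [← hlast, h]; exact PrimeSpectrum.ext hQp
      exact (ne_of_lt hlt) h2
    exact ⟨l'.snoc ⟨Q, hQ⟩ hlt', by simp [hlen], by simpa using PrimeSpectrum.ext hQp⟩

/-- A commutative algebra of endomorphisms commuting with the action of `Λ` on a finite module is
integral over `Λ`. -/
theorem isIntegral_action {S Λ M : Type*} [CommRing S] [CommRing Λ] [AddCommGroup M]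
    [Module S M] [Module Λ M] [SMulCommClass Λ S M] [SMulCommClass S Λ M] [Module.Finite Λ M]
    (B : Subalgebra S (Module.End S M))
    (hB : B ≤ Algebra.adjoin S (Set.range (Module.toModuleEnd S (S := Λ) M))) (actB : Λ →+* B)
    (hact : ∀ (a : Λ) (x : M), (actB a : Module.End S M) x = a • x) : actB.IsIntegral := fun b => by
  have hb : ∀ (r : Λ) (x : M), (b : Module.End S M) (r • x) = r • (b : Module.End S M) x := by
    obtain ⟨b, hb⟩ := b
    show ∀ (r : Λ) (x : M), b (r • x) = r • b x
    replace hb := hB hb
    induction hb using Algebra.adjoin_induction with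
    | mem b hb => obtain ⟨a, rfl⟩ := hb; exact fun r x => smul_comm a r x
    | algebraMap s => exact fun r x => smul_comm s r x
    | add b c _ _ h1 h2 => exact fun r x => by simp [h1, h2, smul_add]
    | mul b c _ _ h1 h2 => exact fun r x => by simp [h1, h2]
  let bΛ : Module.End Λ M :=
    { toFun := (b : Module.End S M)
      map_add' := fun x y => map_add _ x y
      map_smul' := hb }
  obtain ⟨P', hP', hP'0⟩ := LinearMap.exists_monic_and_aeval_eq_zero Λ bΛ
  refine ⟨P', hP', Subtype.ext (LinearMap.ext fun x => ?_)⟩
  have hpow : ∀ (i : ℕ) (x : M), ((b : Module.End S M) ^ i) x = (bΛ ^ i) x := by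
    intro i
    induction i with
    | zero => exact fun x => rfl
    | succ i ih =>
      intro x
      rw [pow_succ', pow_succ', Module.End.mul_apply, Module.End.mul_apply, ih]
      rfl
  have h1 := LinearMap.congr_fun hP'0 x
  rw [Polynomial.aeval_eq_sum_range, LinearMap.sum_apply] at h1
  rw [Polynomial.eval₂_eq_sum_range, AddSubmonoidClass.coe_finsetSum, LinearMap.sum_apply]
  refine Eq.trans (Finset.sum_congr rfl fun i _ => ?_) h1
  rw [Subalgebra.coe_mul, SubmonoidClass.coe_pow, Module.End.mul_apply, LinearMap.smul_apply,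
    hpow, hact]

end Fermat.Agent.RT.Algebra
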