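import Mathlib.RingTheory.AdicCompletion.Completeness
import Mathlib.RingTheory.AdicCompletion.Noetherian
import Mathlib.RingTheory.Ideal.Quotient.Index
import Mathlib.Tactic

/-!
# Limits of sequences of power series along an ultrafilter
-/

set_option autoImplicit false

namespace Fermat.Agent.RT.Algebra

open MvPowerSeries IsLocalRing

variable {σ : Type*} [Finite σ]

/-- A series whose coefficients of degree `< K` vanish lies in the `K`-th power of the ideal of
the variables. -/
theorem mem_pow_span_X {R : Type*} [CommRing R] {f : MvPowerSeries σ R} {K : ℕ}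
    (h : truncTotal K f = 0) :
    f ∈ Ideal.span (Set.range (X : σ → MvPowerSeries σ R)) ^ K := by
  set e := toAdicCompletionAlgEquiv σ R with he
  have h1 : e f ∈ LinearMap.ker
      (AdicCompletion.eval (MvPolynomial.idealOfVars σ R) (MvPolynomial σ R) K) := by
    rw [LinearMap.mem_ker, AdicCompletion.eval_apply]
    show (toAdicCompletion σ R f).val K = 0
    rw [toAdicCompletion_apply_eq_mk_truncTotal, h]
    rfl
  rw [← AdicCompletion.pow_smul_top_eq_ker_eval (MvPolynomial.idealOfVars_fg σ R),
    Ideal.smul_top_eq_map, Submodule.restrictScalars_mem, Ideal.map_pow] at h1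
  have h2 : (MvPolynomial.idealOfVars σ R).map
      (algebraMap (MvPolynomial σ R)
        (AdicCompletion (MvPolynomial.idealOfVars σ R) (MvPolynomial σ R))) =
      (Ideal.span (Set.range (X : σ → MvPowerSeries σ R))).map e.toRingEquiv := by
    simp_rw [Ideal.map_span, ← Set.range_comp]
    congr 2; ext1
    simp [e, AdicCompletion.algebraMap_apply, ← MvPolynomial.coe_X, toAdicCompletion_coe]
  rw [h2, ← Ideal.map_pow] at h1
  obtain ⟨g, hg, hgf⟩ := (Ideal.mem_map_iff_of_surjective _ e.toRingEquiv.surjective).mp h1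
  exact e.injective hgf ▸ hg

variable {O : Type*} [CommRing O] [IsLocalRing O]

omit [Finite σ] in
/-- The variables of the power series ring lie in the maximal ideal. -/
theorem span_X_le_maximalIdeal :
    Ideal.span (Set.range (X : σ → MvPowerSeries σ O)) ≤ maximalIdeal (MvPowerSeries σ O) := by
  rw [Ideal.span_le]
  rintro _ ⟨i, rfl⟩
  exact (IsLocalRing.mem_maximalIdeal _).mpr fun h => by
    simpa using MvPowerSeries.isUnit_iff_constantCoeff.mp h

/-- Closeness of coefficients gives closeness in the adic topology. -/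
theorem mem_pow_maximalIdeal {f : MvPowerSeries σ O} {K : ℕ}
    (h : ∀ d : σ →₀ ℕ, d.degree < K → coeff d f ∈ maximalIdeal O ^ K) :
    f ∈ maximalIdeal (MvPowerSeries σ O) ^ K := by
  classical
  set p := truncTotal K f with hp
  have htail : f - (p : MvPowerSeries σ O) ∈
      Ideal.span (Set.range (X : σ → MvPowerSeries σ O)) ^ K := by
    refine mem_pow_span_X (MvPolynomial.ext _ _ fun d => ?_)
    rw [map_sub, MvPolynomial.coeff_sub, MvPolynomial.coeff_zero]
    by_cases hd : d.degree < K
    · rw [coeff_truncTotal _ hd, coeff_truncTotal _ hd, MvPolynomial.coeff_coe,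
        hp, coeff_truncTotal _ hd, sub_self]
    · rw [coeff_truncTotal_eq_zero _ (not_lt.mp hd), coeff_truncTotal_eq_zero _ (not_lt.mp hd),
        sub_self]
  have hle : Ideal.map (C (σ := σ)) (maximalIdeal O) ≤ maximalIdeal (MvPowerSeries σ O) := by
    rw [Ideal.map_le_iff_le_comap]
    intro c hc
    exact (IsLocalRing.mem_maximalIdeal _).mpr fun h => (IsLocalRing.mem_maximalIdeal c).mp hc
      (by simpa using MvPowerSeries.isUnit_iff_constantCoeff.mp h)
  have hpoly : (p : MvPowerSeries σ O) ∈ maximalIdeal (MvPowerSeries σ O) ^ K := by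
    rw [p.as_sum, show ((∑ v ∈ p.support, MvPolynomial.monomial v (p.coeff v) : MvPolynomial σ O) :
      MvPowerSeries σ O) = MvPolynomial.coeToMvPowerSeries.ringHom
        (∑ v ∈ p.support, MvPolynomial.monomial v (p.coeff v)) from rfl, map_sum]
    refine Ideal.sum_mem _ fun v hv => ?_
    rw [MvPolynomial.coeToMvPowerSeries.ringHom_apply, MvPolynomial.coe_monomial,
      show monomial v (p.coeff v) = C (p.coeff v) * monomial v (1 : O) by
        rw [← monomial_zero_eq_C_apply, monomial_mul_monomial, zero_add, mul_one]]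
    refine Ideal.mul_mem_right _ _ (Ideal.pow_right_mono hle K ?_)
    rw [← Ideal.map_pow]
    refine Ideal.mem_map_of_mem _ ?_
    have hd : v.degree < K := by
      by_contra hd
      exact MvPolynomial.mem_support_iff.mp hv (coeff_truncTotal_eq_zero _ (not_lt.mp hd))
    rw [hp, coeff_truncTotal _ hd]
    exact h v hd
  have := Ideal.add_mem _ (Ideal.pow_right_mono span_X_le_maximalIdeal K htail) hpoly
  rwa [sub_add_cancel] at this

/-- `O` modulo a power of its maximal ideal is finite, the residue field being so. -/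
theorem finite_quotient_pow [IsNoetherianRing O] [Finite (ResidueField O)] (K : ℕ) :
    Finite (O ⧸ maximalIdeal O ^ K) :=
  haveI : Finite (O ⧸ maximalIdeal O) := ‹Finite (ResidueField O)›
  Ideal.finite_quotient_pow (IsNoetherian.noetherian _) K

/-- A sequence of power series has a limit along any ultrafilter. -/
theorem exists_ultralimit [IsNoetherianRing O] [IsAdicComplete (maximalIdeal O) O]
    [Finite (ResidueField O)] (U : Ultrafilter ℕ) (x : ℕ → MvPowerSeries σ O) :
    ∃ L : MvPowerSeries σ O,
      ∀ K, ∀ᶠ n in (U : Filter ℕ), x n - L ∈ maximalIdeal (MvPowerSeries σ O) ^ K := by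
  classical
  have hstep : ∀ (d : σ →₀ ℕ) (K : ℕ),
      ∃ c : O, ∀ᶠ n in (U : Filter ℕ), coeff d (x n) - c ∈ maximalIdeal O ^ K := by
    intro d K
    have := finite_quotient_pow (O := O) K
    obtain ⟨q, hq⟩ := Ultrafilter.eq_pure_of_finite
      (U.map fun n => Ideal.Quotient.mk (maximalIdeal O ^ K) (coeff d (x n)))
    obtain ⟨c, rfl⟩ := Ideal.Quotient.mk_surjective q
    refine ⟨c, ?_⟩
    have : {Ideal.Quotient.mk (maximalIdeal O ^ K) c} ∈
        U.map fun n => Ideal.Quotient.mk (maximalIdeal O ^ K) (coeff d (x n)) := by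
      rw [hq]
      exact Set.mem_singleton _
    filter_upwards [Ultrafilter.mem_map.mp this] with n hn
    exact Ideal.Quotient.eq.mp hn
  choose c hc using hstep
  have hcauchy : ∀ d, ∀ {m n : ℕ}, m ≤ n →
      c d m ≡ c d n [SMOD (maximalIdeal O ^ m • ⊤ : Submodule O O)] := by
    intro d m n hmn
    obtain ⟨i, hi, hj⟩ := ((hc d m).and (hc d n)).exists
    rw [SModEq.sub_mem, smul_eq_mul, Ideal.mul_top]
    have := sub_mem (Ideal.pow_le_pow_right hmn hj) hi
    simpa using this
  choose L hL using fun d => IsPrecomplete.prec (I := maximalIdeal O) inferInstance (hcauchy d)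
  obtain ⟨Lf, hLf⟩ : ∃ Lf : MvPowerSeries σ O, ∀ d, coeff d Lf = L d := ⟨fun d => L d, fun d => rfl⟩
  refine ⟨Lf, fun K => ?_⟩
  have hev : ∀ᶠ n in (U : Filter ℕ), ∀ d ∈ {d : σ →₀ ℕ | d.degree < K},
      coeff d (x n) - L d ∈ maximalIdeal O ^ K := by
    rw [(Finsupp.finite_of_degree_lt K).eventually_all]
    intro d _
    filter_upwards [hc d K] with n hn
    have h1 := hL d K
    rw [SModEq.sub_mem, smul_eq_mul, Ideal.mul_top] at h1
    simpa using add_mem hn h1
  filter_upwards [hev] with n hn
  refine mem_pow_maximalIdeal fun d hd => ?_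
  rw [map_sub, hLf]
  exact hn d hd

/-- Elements congruent along the ultrafilter to every order are equal. -/
theorem eq_of_eventually_sub_mem [IsNoetherianRing O] (U : Ultrafilter ℕ)
    {a b : MvPowerSeries σ O}
    (h : ∀ K, ∀ᶠ _n in (U : Filter ℕ), a - b ∈ maximalIdeal (MvPowerSeries σ O) ^ K) : a = b := by
  have : IsHausdorff (maximalIdeal (MvPowerSeries σ O)) (MvPowerSeries σ O) := inferInstance
  refine sub_eq_zero.mp (this.haus _ fun K => ?_)
  rw [SModEq.zero, smul_eq_mul, Ideal.mul_top]
  exact (h K).exists.choose_spec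

end Fermat.Agent.RT.Algebra
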