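import Fermat.Agent.RT.Algebra.LimitSystem
import Fermat.Agent.RT.Algebra.FlipStep

/-!
# The flip on the limit, from data at the levels

Two degeneracy maps `f₁, f₂` and their two adjoints `g₁, g₂` at every level, with composites
`(c, T; T, c)`, give the flip on the limit.
-/

set_option autoImplicit false

noncomputable section

namespace Fermat.Agent.RT.Algebra.Presentation

open IsLocalRing Fermat.Agent.RT.Ihara

variable {U : Ultrafilter ℕ} {S : Type*} [CommRing S] [IsDomain S] [IsLocalRing S]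
  [IsNoetherianRing S] [IsAdicComplete (maximalIdeal S) S] [Finite (ResidueField S)]
  {Λ : Type*} [CommRing Λ] [IsLocalRing Λ] [IsNoetherianRing Λ]
  [IsAdicComplete (maximalIdeal Λ) Λ] [Finite (ResidueField Λ)]
  {N M : ℕ → Type*} [∀ n, AddCommGroup (N n)] [∀ n, Module S (N n)] [∀ n, Module Λ (N n)]
  [∀ n, SMulCommClass Λ S (N n)] [∀ n, AddCommGroup (M n)] [∀ n, Module S (M n)]
  [∀ n, Module Λ (M n)] [∀ n, SMulCommClass Λ S (M n)]
  {A : Presentation U S N} {B : Presentation U S M}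
  [Module.Finite Λ A.Lim] [Module.Finite Λ B.Lim]
  {f₁ f₂ : ∀ n, N n →ₗ[S] M n} {g₁ g₂ : ∀ n, M n →ₗ[S] N n} {cs Ts : ℕ → Λ} {c T : Λ} {k : ℕ}

/-- The level data of a flip. -/
structure IsFlipData (A : Presentation U S N) (f₁ f₂ : ∀ n, N n →ₗ[S] M n)
    (g₁ g₂ : ∀ n, M n →ₗ[S] N n) (cs Ts : ℕ → Λ) : Prop where
  f₁_smul : ∀ n (a : Λ) x, f₁ n (a • x) = a • f₁ n x
  f₂_smul : ∀ n (a : Λ) x, f₂ n (a • x) = a • f₂ n x
  g₁_smul : ∀ n (a : Λ) x, g₁ n (a • x) = a • g₁ n x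
  g₂_smul : ∀ n (a : Λ) x, g₂ n (a • x) = a • g₂ n x
  g₁f₁ : ∀ᶠ n in (U : Filter ℕ), ∀ x, g₁ n (f₁ n x) = cs n • x
  g₁f₂ : ∀ᶠ n in (U : Filter ℕ), ∀ x, g₁ n (f₂ n x) = Ts n • x
  g₂f₁ : ∀ᶠ n in (U : Filter ℕ), ∀ x, g₂ n (f₁ n x) = Ts n • x
  g₂f₂ : ∀ᶠ n in (U : Filter ℕ), ∀ x, g₂ n (f₂ n x) = cs n • x
  inj : ∀ᶠ n in (U : Filter ℕ), ∀ x y,
    f₁ n x + f₂ n y ∈ maximalIdeal S • (⊤ : Submodule S (M n)) →
      x ∈ maximalIdeal S • (⊤ : Submodule S (N n)) ∧ y ∈ maximalIdeal S • (⊤ : Submodule S (N n))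
  surj : ∀ᶠ n in (U : Filter ℕ), ∀ x y, ∃ z,
    g₁ n z - x ∈ maximalIdeal S • (⊤ : Submodule S (N n)) ∧
      g₂ n z - y ∈ maximalIdeal S • (⊤ : Submodule S (N n))

variable (h : IsFlipData A f₁ f₂ g₁ g₂ cs Ts) (hc : Conv U cs c) (hT : Conv U Ts T)

/-- The degeneracy map on the limit. -/
def flipIn (h : IsFlipData A f₁ f₂ g₁ g₂ cs Ts) : A.Lim × A.Lim →ₗ[Λ] B.Lim :=
  (A.mapLin B f₁ h.f₁_smul).coprod (A.mapLin B f₂ h.f₂_smul)

/-- Its adjoint on the limit. -/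
def flipOut (h : IsFlipData A f₁ f₂ g₁ g₂ cs Ts) : B.Lim →ₗ[Λ] A.Lim × A.Lim :=
  (B.mapLin A g₁ h.g₁_smul).prod (B.mapLin A g₂ h.g₂_smul)

include hc hT in
omit [IsNoetherianRing Λ] [IsAdicComplete (maximalIdeal Λ) Λ] [Finite (ResidueField Λ)]
  [Module.Finite Λ A.Lim] [Module.Finite Λ B.Lim] in
omit [IsDomain S] in
theorem flipOut_comp_flipIn : flipOut (B := B) h ∘ₗ flipIn (B := B) h = crossMap c T := by
  have e : ∀ (f : ∀ n, N n →ₗ[S] M n) (g : ∀ n, M n →ₗ[S] N n) (as : ℕ → Λ) (a : Λ),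
      Conv U as a → (∀ᶠ n in (U : Filter ℕ), ∀ x, g n (f n x) = as n • x) →
        ∀ u : A.Lim, B.map A g (A.map B f u) = a • u := fun f g as a ha hgf u => by
    rw [← LinearMap.comp_apply, ← map_comp']
    exact map_eq_smul ha _ hgf u
  refine LinearMap.ext fun u => ?_
  simp only [flipOut, flipIn, LinearMap.comp_apply, LinearMap.coprod_apply, mapLin_apply,
    LinearMap.prod_apply, Function.prod, map_add, crossMap_apply, Prod.mk_add_mk,
    e _ _ _ _ hc h.g₁f₁,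
    e _ _ _ _ hT h.g₁f₂, e _ _ _ _ hT h.g₂f₁, e _ _ _ _ hc h.g₂f₂]

omit [IsNoetherianRing Λ] [IsAdicComplete (maximalIdeal Λ) Λ] [Finite (ResidueField Λ)]
  [Module.Finite Λ A.Lim] [Module.Finite Λ B.Lim] in
omit [IsDomain S] [IsLocalRing Λ] in
theorem flipOut_apply (m : B.Lim) :
    flipOut (B := B) h m = (B.map A g₁ m, B.map A g₂ m) := rfl

omit [IsNoetherianRing Λ] [IsAdicComplete (maximalIdeal Λ) Λ] [Finite (ResidueField Λ)]
  [Module.Finite Λ A.Lim] [Module.Finite Λ B.Lim] [IsLocalRing Λ] in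
omit [IsDomain S] [IsNoetherianRing S] [IsAdicComplete (maximalIdeal S) S]
  [Finite (ResidueField S)] [∀ (n : ℕ), SMulCommClass Λ S (N n)]
  [∀ (n : ℕ), SMulCommClass Λ S (M n)] in
theorem eventually_surjective (h : IsFlipData A f₁ f₂ g₁ g₂ cs Ts) :
    ∀ᶠ n in (U : Filter ℕ), Function.Surjective ((g₁ n).prod (g₂ n)) := by
  filter_upwards [h.surj, A.surj] with n hs hA
  have : Module.Finite S (N n) := Module.Finite.of_surjective _ hA
  refine surjective_of_surjective_mod ((g₁ n).prod (g₂ n)) fun w => ?_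
  obtain ⟨z, h1, h2⟩ := hs w.1 w.2
  refine ⟨z, ?_⟩
  have e : (g₁ n).prod (g₂ n) z - w =
      LinearMap.inl S _ _ (g₁ n z - w.1) + LinearMap.inr S _ _ (g₂ n z - w.2) := by
    ext <;> simp
  rw [e]
  refine add_mem ?_ ?_
  · have := Submodule.mem_map_of_mem (f := LinearMap.inl S (N n) (N n)) h1
    rw [Submodule.map_smul''] at this
    exact Submodule.smul_mono le_rfl le_top this
  · have := Submodule.mem_map_of_mem (f := LinearMap.inr S (N n) (N n)) h2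
    rw [Submodule.map_smul''] at this
    exact Submodule.smul_mono le_rfl le_top this

omit [IsNoetherianRing Λ] [IsAdicComplete (maximalIdeal Λ) Λ] [Finite (ResidueField Λ)]
  [Module.Finite Λ A.Lim] [Module.Finite Λ B.Lim] [IsLocalRing Λ] in
omit [IsDomain S] in
theorem flip_props (h : IsFlipData A f₁ f₂ g₁ g₂ cs Ts) :
    (∀ (s : S) u, flipIn (B := B) h (s • u) = s • flipIn h u) ∧
    (∀ (s : S) m, flipOut (B := B) h (s • m) = s • flipOut h m) ∧
    (∀ u, flipIn (B := B) h u ∈ maximalIdeal S • (⊤ : Submodule S B.Lim) →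
      u ∈ maximalIdeal S • (⊤ : Submodule S (A.Lim × A.Lim))) ∧
    ∀ w, ∃ m, flipOut (B := B) h m - w ∈ maximalIdeal S • (⊤ : Submodule S (A.Lim × A.Lim)) :=
  ⟨fun s u => map_smul ((A.map B f₁).coprod (A.map B f₂)) s u,
    fun s m => map_smul ((B.map A g₁).prod (B.map A g₂)) s m,
    fun u hu => injective_mod f₁ f₂ h.inj u hu,
    fun w => surjective_mod g₁ g₂ h.surj w⟩

omit [IsNoetherianRing Λ] [IsAdicComplete (maximalIdeal Λ) Λ] [Finite (ResidueField Λ)] in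
include h hc hT in
/-- **The flip on the limit.** -/
theorem exists_prime_flip_lim
    (hker : ∀ᶠ n in (U : Filter ℕ), ∀ z, g₁ n z = 0 → g₂ n z = 0 →
      (Ts n ^ 2 - cs n ^ 2) ^ k • z = 0)
    {P : Ideal Λ} [P.IsPrime] (hA : Module.annihilator Λ A.Lim ≤ P) {μ : Λ} (hμ : μ * μ = 1)
    (hy : T + μ * c ∈ P) (hy' : T - μ * c ∉ P) :
    ∃ q : Ideal Λ, q.IsPrime ∧ q ≤ P ∧ T + μ * c ∈ q ∧ Module.annihilator Λ B.Lim ≤ q ∧
      ringKrullDim (Λ ⧸ q) = ringKrullDim S ∧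
      ∀ (a : Λ) (s : S), s ≠ 0 → (∀ m : B.Lim, a • m = s • m) → a ∉ q := by
  obtain ⟨hS, hSs, hinj, hsurj⟩ := flip_props (B := B) h
  have hconv : ∀ j, Conv U (fun n => (Ts n ^ 2 - cs n ^ 2) ^ j) ((T ^ 2 - c ^ 2) ^ j) := by
    intro j
    induction j with
    | zero => simpa using conv_const (U := U) (1 : Λ)
    | succ j ih =>
      simpa only [pow_succ] using ih.mul
        (by simpa only [← sq] using (hT.mul hT).sub (hc.mul hc) : Conv U (fun n => Ts n ^ 2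
          - cs n ^ 2) (T ^ 2 - c ^ 2))
  refine exists_prime_flip_sign (k := k) hS hSs hinj hsurj (flipOut_comp_flipIn h hc hT)
    (fun m hm => ?_)
    hA hμ hy hy'
  rw [flipOut_apply, Prod.mk_eq_zero] at hm
  let φ : ∀ n, M n →ₗ[S] M n := fun n =>
    Module.toModuleEnd S (S := Λ) (M n) ((Ts n ^ 2 - cs n ^ 2) ^ k)
  rw [← map_eq_smul (hconv k) φ (Filter.Eventually.of_forall fun n x => rfl) m]
  exact map_eq_zero_of_ker g₁ g₂ φ (eventually_surjective h) hker hm.1 hm.2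

end Fermat.Agent.RT.Algebra.Presentation
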