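import Fermat.Agent.RT.Algebra.Limit

/-!
# Limits of systems of patching levels

Along an ultrafilter, a sequence of modules which are finite free of bounded rank up to arbitrarily
high powers of the maximal ideal of `S` has a limit, finite free over `S`. The limit is functorial
in families of `S`-linear maps, so every identity holding at all levels holds in the limit; the
same holds for injectivity and surjectivity modulo the maximal ideal, actions, and annihilators.

The finiteness criterion over `Λ` is `finite_of_quad`.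
-/

set_option autoImplicit false

noncomputable section

namespace Fermat.Agent.RT.Algebra

open IsLocalRing Submodule

/-! ## Limits of sequences along an ultrafilter -/

section Conv

variable (U : Ultrafilter ℕ) {A : Type*} [CommRing A] [IsLocalRing A]

/-- The sequence `a` converges to `b` along `U` in the adic topology. -/
def Conv (a : ℕ → A) (b : A) : Prop :=
  ∀ j, ∀ᶠ n in (U : Filter ℕ), a n - b ∈ maximalIdeal A ^ j

variable {U}

/-- A constant sequence converges to its value. -/
theorem conv_const (b : A) : Conv U (fun _ => b) b := fun j => by simp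

theorem Conv.add {a a' : ℕ → A} {b b' : A} (h : Conv U a b) (h' : Conv U a' b') :
    Conv U (fun n => a n + a' n) (b + b') := fun j => by
  filter_upwards [h j, h' j] with n hn hn'
  rw [add_sub_add_comm]
  exact add_mem hn hn'

/-- Limits of sequences along the ultrafilter multiply. -/
theorem Conv.mul {a a' : ℕ → A} {b b' : A} (h : Conv U a b) (h' : Conv U a' b') :
    Conv U (fun n => a n * a' n) (b * b') := fun j => by
  filter_upwards [h j, h' j] with n hn hn'
  rw [show a n * a' n - b * b' = a n * (a' n - b') + b' * (a n - b) by ring]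
  exact add_mem (Ideal.mul_mem_left _ _ hn') (Ideal.mul_mem_left _ _ hn)

/-- Limits along the ultrafilter are compatible with differences. -/
theorem Conv.sub {a a' : ℕ → A} {b b' : A} (h : Conv U a b) (h' : Conv U a' b') :
    Conv U (fun n => a n - a' n) (b - b') := fun j => by
  filter_upwards [h j, h' j] with n hn hn'
  rw [sub_sub_sub_comm]
  exact sub_mem hn hn'

variable [IsNoetherianRing A]

/-- Limits along the ultrafilter are unique. -/
theorem Conv.unique {a : ℕ → A} {b b' : A} (h : Conv U a b) (h' : Conv U a b') : b = b' := by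
  refine sub_eq_zero.mp ((inferInstance : IsHausdorff (maximalIdeal A) A).haus _ fun j => ?_)
  rw [SModEq.zero, smul_eq_mul, Ideal.mul_top]
  obtain ⟨n, hn, hn'⟩ := ((h j).and (h' j)).exists
  simpa using sub_mem hn' hn

/-- Ideals are closed. -/
theorem Conv.mem {a : ℕ → A} {b : A} (h : Conv U a b) {I : Ideal A}
    (ha : ∀ᶠ n in (U : Filter ℕ), a n ∈ I) : b ∈ I := by
  rw [← Ideal.Quotient.eq_zero_iff_mem]
  refine (inferInstance : IsHausdorff (maximalIdeal A) (A ⧸ I)).haus _ fun j => ?_
  obtain ⟨n, hn, hna⟩ := ((h j).and ha).exists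
  rw [SModEq.zero, Ideal.smul_top_eq_map, restrictScalars_mem, Ideal.Quotient.algebraMap_eq]
  have h1 := Ideal.mem_map_of_mem (Ideal.Quotient.mk I) hn
  rw [map_sub, Ideal.Quotient.eq_zero_iff_mem.mpr hna, zero_sub] at h1
  simpa using h1

variable [IsAdicComplete (maximalIdeal A) A] [Finite (ResidueField A)]

/-- Every sequence converges. -/
theorem exists_conv (U : Ultrafilter ℕ) (a : ℕ → A) : ∃ b, Conv U a b := by
  classical
  have hstep : ∀ j : ℕ, ∃ c : A, ∀ᶠ n in (U : Filter ℕ), a n - c ∈ maximalIdeal A ^ j := by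
    intro j
    have := finite_quotient_pow (O := A) j
    obtain ⟨q, hq⟩ := Ultrafilter.eq_pure_of_finite
      (U.map fun n => Ideal.Quotient.mk (maximalIdeal A ^ j) (a n))
    obtain ⟨c, rfl⟩ := Ideal.Quotient.mk_surjective q
    refine ⟨c, ?_⟩
    have : {Ideal.Quotient.mk (maximalIdeal A ^ j) c} ∈
        U.map fun n => Ideal.Quotient.mk (maximalIdeal A ^ j) (a n) := by
      rw [hq]
      exact Set.mem_singleton _
    filter_upwards [Ultrafilter.mem_map.mp this] with n hn
    exact Ideal.Quotient.eq.mp hn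
  choose c hc using hstep
  have hcauchy : ∀ {m n : ℕ}, m ≤ n →
      c m ≡ c n [SMOD (maximalIdeal A ^ m • ⊤ : Submodule A A)] := by
    intro m n hmn
    obtain ⟨i, hi, hj⟩ := ((hc m).and (hc n)).exists
    rw [SModEq.sub_mem, smul_eq_mul, Ideal.mul_top]
    simpa using sub_mem (Ideal.pow_le_pow_right hmn hj) hi
  obtain ⟨L, hL⟩ := IsPrecomplete.prec (I := maximalIdeal A) inferInstance hcauchy
  refine ⟨L, fun j => ?_⟩
  filter_upwards [hc j] with n hn
  have h1 := hL j
  rw [SModEq.sub_mem, smul_eq_mul, Ideal.mul_top] at h1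
  simpa using add_mem hn h1

/-- The limit of a sequence. -/
def clim (U : Ultrafilter ℕ) (a : ℕ → A) : A := (exists_conv U a).choose

theorem conv_clim (a : ℕ → A) : Conv U a (clim U a) := (exists_conv U a).choose_spec

/-- The limit of a sequence of ideals. -/
def limitIdeal (U : Ultrafilter ℕ) (I : ℕ → Ideal A) : Ideal A where
  carrier := {x | ∃ z : ℕ → A, (∀ n, z n ∈ I n) ∧ Conv U z x}
  zero_mem' := ⟨fun _ => 0, fun _ => zero_mem _, conv_const 0⟩
  add_mem' := fun ⟨_, hz, hx⟩ ⟨_, hz', hx'⟩ =>
    ⟨_, fun n => add_mem (hz n) (hz' n), hx.add hx'⟩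
  smul_mem' := fun c _ ⟨_, hz, hx⟩ =>
    ⟨_, fun n => Ideal.mul_mem_left _ c (hz n), (conv_const c).mul hx⟩

omit [IsNoetherianRing A] [IsAdicComplete (maximalIdeal A) A] [Finite (ResidueField A)] in
/-- An ideal inside every term lies in the limit ideal. -/
theorem le_limitIdeal {J : Ideal A} {I : ℕ → Ideal A} (h : ∀ n, J ≤ I n) : J ≤ limitIdeal U I :=
  fun x hx => ⟨fun _ => x, fun n => h n hx, conv_const x⟩

omit [IsNoetherianRing A] [IsAdicComplete (maximalIdeal A) A] [Finite (ResidueField A)] in
/-- The limit ideal is monotone. -/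
theorem limitIdeal_mono {I I' : ℕ → Ideal A} (h : ∀ n, I n ≤ I' n) :
    limitIdeal U I ≤ limitIdeal U I' := fun _ ⟨z, hz, hx⟩ => ⟨z, fun n => h n (hz n), hx⟩

/-- The limit ideal commutes with adding a fixed ideal. -/
theorem limitIdeal_sup (I : ℕ → Ideal A) (J : Ideal A) :
    limitIdeal U (fun n => I n ⊔ J) = limitIdeal U I ⊔ J := by
  refine le_antisymm (fun x hx => ?_) (sup_le (limitIdeal_mono fun n => le_sup_left)
    (le_limitIdeal fun n => le_sup_right))
  obtain ⟨z, hz, hx⟩ := hx
  choose a ha b hb hab using fun n => Submodule.mem_sup.mp (hz n)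
  have h := (conv_clim (U := U) a).add (conv_clim (U := U) b)
  simp only [hab] at h
  rw [hx.unique h]
  exact Submodule.add_mem_sup ⟨a, ha, conv_clim a⟩
    ((conv_clim b).mem (Filter.Eventually.of_forall hb))

omit [IsNoetherianRing A] [IsAdicComplete (maximalIdeal A) A] [Finite (ResidueField A)] in
/-- A sequence of local homomorphisms has a limit, compatible with convergence. -/
theorem exists_limit_hom {B : Type*} [CommRing B] [IsLocalRing B] [IsNoetherianRing B]
    [IsAdicComplete (maximalIdeal B) B] [Finite (ResidueField B)] (U : Ultrafilter ℕ)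
    (θ : ℕ → A →+* B) (hθ : ∀ n, ∀ a ∈ maximalIdeal A, θ n a ∈ maximalIdeal B) :
    ∃ θ' : A →+* B, (∀ a ∈ maximalIdeal A, θ' a ∈ maximalIdeal B) ∧
      ∀ (a : ℕ → A) (b : A), Conv U a b → Conv U (fun n => θ n (a n)) (θ' b) := by
  have hconst : ∀ a, Conv U (fun n => θ n a) (clim U fun n => θ n a) := fun a => conv_clim _
  let θ' : A →+* B :=
    { toFun := fun a => clim U fun n => θ n a
      map_one' := (hconst 1).unique (by simpa using conv_const (1 : B))
      map_zero' := (hconst 0).unique (by simpa using conv_const (0 : B))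
      map_mul' := fun x y => (hconst (x * y)).unique (by simpa using (hconst x).mul (hconst y))
      map_add' := fun x y => (hconst (x + y)).unique (by simpa using (hconst x).add (hconst y)) }
  refine ⟨θ', fun a ha => (hconst a).mem (Filter.Eventually.of_forall fun n => hθ n a ha),
    fun a b hab j => ?_⟩
  filter_upwards [hab j, hconst b j] with n hn hn'
  have h1 : θ n (a n - b) ∈ maximalIdeal B ^ j := by
    have hle : (maximalIdeal A ^ j).map (θ n) ≤ maximalIdeal B ^ j := by
      rw [Ideal.map_pow]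
      exact Ideal.pow_right_mono (Ideal.map_le_iff_le_comap.mpr (hθ n)) j
    exact hle (Ideal.mem_map_of_mem _ hn)
  have h2 : θ n (a n) - θ' b = θ n (a n - b) + (θ n b - θ' b) := by rw [map_sub]; ring
  rw [h2]
  exact add_mem h1 hn'

end Conv

/-! ## Presentations -/

/-- Power series rings over complete discrete valuation rings are complete. -/
theorem isAdicComplete_mvPowerSeries {σ O : Type*} [Finite σ] [CommRing O] [IsLocalRing O]
    [IsNoetherianRing O] [IsAdicComplete (maximalIdeal O) O] [Finite (ResidueField O)] :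
    IsAdicComplete (maximalIdeal (MvPowerSeries σ O)) (MvPowerSeries σ O) := by
  refine { toIsHausdorff := inferInstance, toIsPrecomplete := ⟨fun {f} hf => ?_⟩ }
  obtain ⟨L, hL⟩ := exists_ultralimit (Filter.hyperfilter ℕ) f
  refine ⟨L, fun n => ?_⟩
  have hn : ∀ᶠ m in (Filter.hyperfilter ℕ : Filter ℕ), n ≤ m :=
    Filter.hyperfilter_le_cofinite
      (by rw [Nat.cofinite_eq_atTop]; exact Filter.eventually_ge_atTop n)
  obtain ⟨m, hm, hmn⟩ := ((hL n).and hn).exists
  have h1 := hf hmn
  rw [SModEq.sub_mem, smul_eq_mul, Ideal.mul_top] at h1 ⊢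
  simpa using add_mem h1 hm

/-- A vector lies in `I` times the free module iff its entries lie in `I`. -/
theorem mem_smul_top_pi_iff {S : Type*} [CommRing S] {I : Ideal S} {d : ℕ} {u : Fin d → S} :
    u ∈ I • (⊤ : Submodule S (Fin d → S)) ↔ ∀ i, u i ∈ I := by
  classical
  refine ⟨fun hu i => ?_, fun hu => ?_⟩
  · exact Submodule.smul_induction_on (p := fun u : Fin d → S => u i ∈ I) hu
      (fun r hr x _ => I.mul_mem_right _ hr) fun x y hx hy => I.add_mem hx hy
  · rw [pi_eq_sum_univ' u]
    exact sum_mem fun i _ => Submodule.smul_mem_smul (hu i) mem_top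

variable (U : Ultrafilter ℕ) (S : Type*) [CommRing S] [IsLocalRing S]

/-- The levels `M n` are, along `U`, free of rank `rank` up to higher and higher order. -/
structure Presentation (M : ℕ → Type*) [∀ n, AddCommGroup (M n)] [∀ n, Module S (M n)] where
  rank : ℕ
  proj : ∀ n, (Fin rank → S) →ₗ[S] M n
  surj : ∀ᶠ n in (U : Filter ℕ), Function.Surjective (proj n)
  close : ∀ j, ∀ᶠ n in (U : Filter ℕ), ∀ u, proj n u = 0 → ∀ i, u i ∈ maximalIdeal S ^ j

variable {U S} {M : ℕ → Type*} [∀ n, AddCommGroup (M n)] [∀ n, Module S (M n)]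

/-- A presentation from generating families of bounded cardinality whose relations are small. -/
theorem exists_presentation (hU : ∀ j, ∀ᶠ n in (U : Filter ℕ), j ≤ n) {B : ℕ} (D : ℕ → ℕ)
    (hDB : ∀ n, D n ≤ B) (b : ∀ n, Fin (D n) → M n)
    (hb : ∀ n (x : M n), ∃ c : Fin (D n) → S, x = ∑ i, c i • b n i)
    (hJ : ∀ n (c : Fin (D n) → S), ∑ i, c i • b n i = 0 → ∀ i, c i ∈ maximalIdeal S ^ n) :
    ∃ P : Presentation U S M, ∀ᶠ n in (U : Filter ℕ), P.rank = D n := by
  classical
  obtain ⟨⟨d, hd'⟩, hd⟩ := Ultrafilter.eq_pure_of_finite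
    (U.map fun n => (⟨D n, Nat.lt_succ_of_le (hDB n)⟩ : Fin (B + 1)))
  have hev : ∀ᶠ n in (U : Filter ℕ), D n = d := by
    have : {(⟨d, hd'⟩ : Fin (B + 1))} ∈
        U.map fun n => (⟨D n, Nat.lt_succ_of_le (hDB n)⟩ : Fin (B + 1)) := by
      rw [hd]
      exact Set.mem_singleton _
    filter_upwards [Ultrafilter.mem_map.mp this] with n hn
    exact congrArg Fin.val hn
  let proj : ∀ n, (Fin d → S) →ₗ[S] M n := fun n =>
    if h : D n = d then Fintype.linearCombination S (b n ∘ Fin.cast h.symm) else 0
  have hproj : ∀ n (h : D n = d) (u : Fin d → S),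
      proj n u = ∑ i, u (Fin.cast h i) • b n i := fun n h u => by
    subst h
    simp [proj, Fintype.linearCombination_apply]
  refine ⟨⟨d, proj, ?_, fun j => ?_⟩, hev.mono fun n hn => hn.symm⟩
  · filter_upwards [hev] with n hn x
    obtain ⟨c, rfl⟩ := hb n x
    exact ⟨fun i => c (Fin.cast hn.symm i), by rw [hproj n hn]; simp⟩
  · filter_upwards [hev, hU j] with n hn hjn u hu i
    rw [hproj n hn] at hu
    have := hJ n _ hu (Fin.cast hn.symm i)
    exact Ideal.pow_le_pow_right hjn (by simpa using this)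

namespace Presentation

variable (P : Presentation U S M)

/-- The limit. -/
def Lim : Type _ := Fin P.rank → S

instance : AddCommGroup P.Lim := inferInstanceAs (AddCommGroup (Fin P.rank → S))

instance : Module S P.Lim := inferInstanceAs (Module S (Fin P.rank → S))

instance : Module.Free S P.Lim := inferInstanceAs (Module.Free S (Fin P.rank → S))

instance : Module.Finite S P.Lim := inferInstanceAs (Module.Finite S (Fin P.rank → S))

/-- The level components of the limit. -/
def π (n : ℕ) : P.Lim →ₗ[S] M n := P.proj n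

/-! ## Elements and maps in the limit -/

/-- `x` tends to `u`. -/
def Tends (u : P.Lim) (x : ∀ n, M n) : Prop :=
  ∀ j, ∀ᶠ n in (U : Filter ℕ), x n - P.π n u ∈ maximalIdeal S ^ j • (⊤ : Submodule S (M n))

/-- An element of the limit is the limit of its projections. -/
theorem tends_π (u : P.Lim) : P.Tends u fun n => P.π n u := fun j => by simp

/-- For most indices an element lies in `𝔪 ^ j` times the limit as soon as its projection lies in
`𝔪 ^ j` times the module. -/
theorem eventually_mem (j : ℕ) : ∀ᶠ n in (U : Filter ℕ), ∀ u : P.Lim,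
    P.π n u ∈ maximalIdeal S ^ j • (⊤ : Submodule S (M n)) →
      u ∈ maximalIdeal S ^ j • (⊤ : Submodule S P.Lim) := by
  filter_upwards [P.surj, P.close j] with n hs hk u hu
  rw [show (⊤ : Submodule S (M n)) = Submodule.map (P.π n) ⊤ from
    (Submodule.map_top (P.π n) ▸ (LinearMap.range_eq_top.mpr hs).symm :),
    ← Submodule.map_smul''] at hu
  obtain ⟨w, hw, hwu⟩ := hu
  refine mem_smul_top_pi_iff.mpr fun i => ?_
  have h1 := hk (u - w) (by
    show P.π n (u - w) = 0
    rw [map_sub, hwu, sub_self]) i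
  have h2 : u i - w i ∈ maximalIdeal S ^ j := h1
  simpa using add_mem h2 (mem_smul_top_pi_iff.mp hw i)

variable {P} [IsNoetherianRing S]

/-- The limit of a sequence is unique. -/
theorem Tends.unique {u u' : P.Lim} {x : ∀ n, M n} (h : P.Tends u x) (h' : P.Tends u' x) :
    u = u' := by
  refine sub_eq_zero.mp ((inferInstance : IsHausdorff (maximalIdeal S) P.Lim).haus _ fun j => ?_)
  rw [SModEq.zero]
  obtain ⟨n, ⟨hn, hn'⟩, hm⟩ := (((h j).and (h' j)).and (P.eventually_mem j)).exists
  refine hm _ ?_
  rw [map_sub]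
  simpa using sub_mem hn' hn

omit [IsNoetherianRing S] in
theorem Tends.add {u u' : P.Lim} {x x' : ∀ n, M n} (h : P.Tends u x) (h' : P.Tends u' x') :
    P.Tends (u + u') fun n => x n + x' n := fun j => by
  filter_upwards [h j, h' j] with n hn hn'
  rw [map_add, add_sub_add_comm]
  exact add_mem hn hn'

omit [IsNoetherianRing S] in
/-- Limits commute with scalars. -/
theorem Tends.smul {u : P.Lim} {x : ∀ n, M n} (s : S) (h : P.Tends u x) :
    P.Tends (s • u) fun n => s • x n := fun j => by
  filter_upwards [h j] with n hn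
  rw [map_smul, ← smul_sub]
  exact Submodule.smul_mem _ s hn

omit [IsNoetherianRing S] in
/-- A limit only depends on the sequence at most indices. -/
theorem Tends.congr {u : P.Lim} {x x' : ∀ n, M n} (h : P.Tends u x)
    (he : ∀ᶠ n in (U : Filter ℕ), x n = x' n) : P.Tends u x' := fun j => by
  filter_upwards [h j, he] with n hn hn'
  rwa [← hn']

omit [IsNoetherianRing S] in
theorem tends_zero : P.Tends 0 fun _ => 0 := fun j => by simp

variable [IsAdicComplete (maximalIdeal S) S] [Finite (ResidueField S)]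

variable (P) in
theorem exists_tends (x : ∀ n, M n) : ∃ u, P.Tends u x := by
  classical
  have hpre : ∀ n, ∃ w : P.Lim, Function.Surjective (P.proj n) → P.π n w = x n := fun n => by
    by_cases h : Function.Surjective (P.proj n)
    · obtain ⟨w, hw⟩ := h (x n)
      exact ⟨w, fun _ => hw⟩
    · exact ⟨0, fun h' => absurd h' h⟩
  choose c hc' using hpre
  let u : P.Lim := fun i => clim U fun n => c n i
  have hu : ∀ i, Conv U (fun n => c n i) (u i) := fun i => conv_clim _
  refine ⟨u, fun j => ?_⟩
  have hev : ∀ᶠ n in (U : Filter ℕ), ∀ i, c n i - u i ∈ maximalIdeal S ^ j :=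
    Filter.eventually_all.mpr fun i => hu i j
  filter_upwards [P.surj, hev] with n hs hn
  have hc : P.π n (c n) = x n := hc' n hs
  rw [← hc, ← map_sub]
  have hcu : c n - u ∈ maximalIdeal S ^ j • (⊤ : Submodule S P.Lim) :=
    mem_smul_top_pi_iff.mpr hn
  have := Submodule.mem_map_of_mem (f := P.π n) hcu
  rw [Submodule.map_smul''] at this
  exact Submodule.smul_mono le_rfl le_top this

variable (P) in
/-- The limit of a sequence. -/
def lim (x : ∀ n, M n) : P.Lim := (P.exists_tends x).choose

theorem tends_lim (x : ∀ n, M n) : P.Tends (P.lim x) x := (P.exists_tends x).choose_spec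

variable {M' : ℕ → Type*} [∀ n, AddCommGroup (M' n)] [∀ n, Module S (M' n)]
  {M'' : ℕ → Type*} [∀ n, AddCommGroup (M'' n)] [∀ n, Module S (M'' n)]
  {P' : Presentation U S M'} {P'' : Presentation U S M''}

variable (P P') in
/-- The limit of a family of maps. -/
def map (f : ∀ n, M n →ₗ[S] M' n) : P.Lim →ₗ[S] P'.Lim where
  toFun u := P'.lim fun n => f n (P.π n u)
  map_add' u v := (tends_lim _).unique ((Tends.add (tends_lim _) (tends_lim _)).congr
    (Filter.Eventually.of_forall fun n => by simp))
  map_smul' s u := (tends_lim _).unique ((Tends.smul s (tends_lim _)).congr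
    (Filter.Eventually.of_forall fun n => by simp))

theorem Tends.map {u : P.Lim} {x : ∀ n, M n} (h : P.Tends u x) (f : ∀ n, M n →ₗ[S] M' n) :
    P'.Tends (P.map P' f u) fun n => f n (x n) := fun j => by
  filter_upwards [h j, tends_lim (P := P') (fun n => f n (P.π n u)) j] with n hn hn'
  have h1 := Submodule.mem_map_of_mem (f := f n) hn
  rw [Submodule.map_smul''] at h1
  have h2 := add_mem (Submodule.smul_mono le_rfl le_top h1 :
    f n (x n - P.π n u) ∈ maximalIdeal S ^ j • (⊤ : Submodule S (M' n))) hn'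
  rw [map_sub, sub_add_sub_cancel] at h2
  exact h2

theorem tends_map (f : ∀ n, M n →ₗ[S] M' n) (u : P.Lim) :
    P'.Tends (P.map P' f u) fun n => f n (P.π n u) := tends_lim _

theorem map_eq_of_forall (f : ∀ n, M n →ₗ[S] M' n) {u : P.Lim} {v : P'.Lim}
    (h : P'.Tends v fun n => f n (P.π n u)) : P.map P' f u = v := (tends_map f u).unique h

theorem map_comp' (g : ∀ n, M' n →ₗ[S] M'' n) (f : ∀ n, M n →ₗ[S] M' n) :
    P.map P'' (fun n => g n ∘ₗ f n) = P'.map P'' g ∘ₗ P.map P' f :=
  LinearMap.ext fun u => map_eq_of_forall _ ((tends_map f u).map g)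

omit [IsNoetherianRing S] [IsAdicComplete (maximalIdeal S) S] [Finite (ResidueField S)] in
theorem eventually_mem_one (P : Presentation U S M) : ∀ᶠ n in (U : Filter ℕ), ∀ u : P.Lim,
    P.π n u ∈ maximalIdeal S • (⊤ : Submodule S (M n)) →
      u ∈ maximalIdeal S • (⊤ : Submodule S P.Lim) := by
  simpa only [pow_one] using P.eventually_mem 1

/-- Injectivity modulo the maximal ideal passes to the limit. -/
theorem injective_mod (f₁ : ∀ n, M n →ₗ[S] M'' n) (f₂ : ∀ n, M' n →ₗ[S] M'' n)
    (h : ∀ᶠ n in (U : Filter ℕ), ∀ x y,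
      f₁ n x + f₂ n y ∈ maximalIdeal S • (⊤ : Submodule S (M'' n)) →
        x ∈ maximalIdeal S • (⊤ : Submodule S (M n)) ∧
          y ∈ maximalIdeal S • (⊤ : Submodule S (M' n)))
    (u : P.Lim × P'.Lim)
    (hu : (P.map P'' f₁).coprod (P'.map P'' f₂) u ∈ maximalIdeal S • (⊤ : Submodule S P''.Lim)) :
    u ∈ maximalIdeal S • (⊤ : Submodule S (P.Lim × P'.Lim)) := by
  obtain ⟨u, v⟩ := u
  obtain ⟨n, ⟨h1, hn⟩, hm, hm'⟩ :=
    ((((tends_map (P' := P'') f₁ u).add (tends_map (P' := P'') f₂ v)) 1).and h |>.and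
      ((eventually_mem_one P).and (eventually_mem_one P'))).exists
  rw [pow_one] at h1
  have h2 := Submodule.mem_map_of_mem (f := P''.π n) hu
  rw [Submodule.map_smul''] at h2
  have h3 := add_mem h1 (Submodule.smul_mono le_rfl le_top h2)
  rw [LinearMap.coprod_apply, sub_add_cancel] at h3
  obtain ⟨hx, hy⟩ := hn _ _ h3
  have e : ((u, v) : P.Lim × P'.Lim) =
      LinearMap.inl S _ _ u + LinearMap.inr S _ _ v := by simp
  rw [e]
  refine add_mem ?_ ?_
  · have := Submodule.mem_map_of_mem (f := LinearMap.inl S P.Lim P'.Lim) (hm u hx)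
    rw [Submodule.map_smul''] at this
    exact Submodule.smul_mono le_rfl le_top this
  · have := Submodule.mem_map_of_mem (f := LinearMap.inr S P.Lim P'.Lim) (hm' v hy)
    rw [Submodule.map_smul''] at this
    exact Submodule.smul_mono le_rfl le_top this

/-- Surjectivity modulo the maximal ideal passes to the limit. -/
theorem surjective_mod (g₁ : ∀ n, M'' n →ₗ[S] M n) (g₂ : ∀ n, M'' n →ₗ[S] M' n)
    (h : ∀ᶠ n in (U : Filter ℕ), ∀ x y, ∃ z,
      g₁ n z - x ∈ maximalIdeal S • (⊤ : Submodule S (M n)) ∧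
        g₂ n z - y ∈ maximalIdeal S • (⊤ : Submodule S (M' n)))
    (w : P.Lim × P'.Lim) : ∃ z, (P''.map P g₁).prod (P''.map P' g₂) z - w ∈
      maximalIdeal S • (⊤ : Submodule S (P.Lim × P'.Lim)) := by
  classical
  obtain ⟨w₁, w₂⟩ := w
  let p : ∀ n, M'' n → Prop := fun n z =>
    g₁ n z - P.π n w₁ ∈ maximalIdeal S • (⊤ : Submodule S (M n)) ∧
      g₂ n z - P'.π n w₂ ∈ maximalIdeal S • (⊤ : Submodule S (M' n))
  let z : ∀ n, M'' n := fun n => if hz : ∃ z, p n z then hz.choose else 0
  have hz : ∀ᶠ n in (U : Filter ℕ), p n (z n) := h.mono fun n hn => by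
    have hh : ∃ z, p n z := hn (P.π n w₁) (P'.π n w₂)
    show p n (if hz : ∃ z, p n z then hz.choose else 0)
    rw [dif_pos hh]
    exact hh.choose_spec
  let t := P''.lim z
  refine ⟨t, ?_⟩
  obtain ⟨n, ⟨⟨h1, h2⟩, hn1, hn2⟩, hm, hm'⟩ :=
    ((((tends_lim z).map (P' := P) g₁ 1).and ((tends_lim z).map (P' := P') g₂ 1)).and hz |>.and
      ((eventually_mem_one P).and (eventually_mem_one P'))).exists
  rw [pow_one] at h1 h2
  have e1 := hm (P''.map P g₁ t - w₁) (by rw [map_sub]; simpa using sub_mem hn1 h1)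
  have e2 := hm' (P''.map P' g₂ t - w₂) (by rw [map_sub]; simpa using sub_mem hn2 h2)
  have e : (P''.map P g₁).prod (P''.map P' g₂) t - (w₁, w₂) =
      LinearMap.inl S _ _ (P''.map P g₁ t - w₁) + LinearMap.inr S _ _ (P''.map P' g₂ t - w₂) := by
    simp
  rw [e]
  refine add_mem ?_ ?_
  · have := Submodule.mem_map_of_mem (f := LinearMap.inl S P.Lim P'.Lim) e1
    rw [Submodule.map_smul''] at this
    exact Submodule.smul_mono le_rfl le_top this
  · have := Submodule.mem_map_of_mem (f := LinearMap.inr S P.Lim P'.Lim) e2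
    rw [Submodule.map_smul''] at this
    exact Submodule.smul_mono le_rfl le_top this

/-- If `h` vanishes on the kernel of the surjection `(g₁, g₂)` at the levels, it does so in the
limit. -/
theorem map_eq_zero_of_ker (g₁ : ∀ n, M'' n →ₗ[S] M n) (g₂ : ∀ n, M'' n →ₗ[S] M' n)
    {N : ℕ → Type*} [∀ n, AddCommGroup (N n)] [∀ n, Module S (N n)] {Q : Presentation U S N}
    (h : ∀ n, M'' n →ₗ[S] N n)
    (hsurj : ∀ᶠ n in (U : Filter ℕ), Function.Surjective ((g₁ n).prod (g₂ n)))
    (hker : ∀ᶠ n in (U : Filter ℕ), ∀ z, g₁ n z = 0 → g₂ n z = 0 → h n z = 0)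
    {t : P''.Lim} (h₁ : P''.map P g₁ t = 0) (h₂ : P''.map P' g₂ t = 0) :
    P''.map Q h t = 0 := by
  refine map_eq_of_forall h fun j => ?_
  filter_upwards [hsurj, hker, tends_map (P' := P) g₁ t j, tends_map (P' := P') g₂ t j] with
    n hs hk hn1 hn2
  rw [h₁, map_zero, sub_zero] at hn1
  rw [h₂, map_zero, sub_zero] at hn2
  set G := (g₁ n).prod (g₂ n)
  have hmem : G (P''.π n t) ∈ maximalIdeal S ^ j • (⊤ : Submodule S (M n × M' n)) := by
    have e : G (P''.π n t) = LinearMap.inl S _ _ (g₁ n (P''.π n t)) +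
        LinearMap.inr S _ _ (g₂ n (P''.π n t)) := by simp [G]
    rw [e]
    refine add_mem ?_ ?_
    · have := Submodule.mem_map_of_mem (f := LinearMap.inl S (M n) (M' n)) hn1
      rw [Submodule.map_smul''] at this
      exact Submodule.smul_mono le_rfl le_top this
    · have := Submodule.mem_map_of_mem (f := LinearMap.inr S (M n) (M' n)) hn2
      rw [Submodule.map_smul''] at this
      exact Submodule.smul_mono le_rfl le_top this
  rw [show (⊤ : Submodule S (M n × M' n)) = Submodule.map G ⊤ from
    (Submodule.map_top G ▸ (LinearMap.range_eq_top.mpr hs).symm :),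
    ← Submodule.map_smul''] at hmem
  obtain ⟨z, hz, hzG⟩ := hmem
  have h0 : h n (P''.π n t - z) = 0 := by
    have hG : G (P''.π n t - z) = 0 := by rw [map_sub, hzG, sub_self]
    exact hk _ (congrArg Prod.fst hG) (congrArg Prod.snd hG)
  rw [map_sub, sub_eq_zero] at h0
  rw [map_zero, sub_zero, h0]
  have := Submodule.mem_map_of_mem (f := h n) hz
  rw [Submodule.map_smul''] at this
  exact Submodule.smul_mono le_rfl le_top this

/-! ## Actions in the limit -/

section Action

variable {Λ : Type*} [CommRing Λ] [∀ n, Module Λ (M n)] [∀ n, SMulCommClass Λ S (M n)]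

/-- The action in the limit. -/
instance (priority := 90) instSMulAction : SMul Λ P.Lim :=
  ⟨fun a u => P.map P (fun n => Module.toModuleEnd S (S := Λ) (M n) a) u⟩

/-- The action of `Λ` on the limit is the limit of the actions. -/
theorem tends_smul_π (a : Λ) (u : P.Lim) : P.Tends (a • u) fun n => a • P.π n u :=
  tends_map (fun n => Module.toModuleEnd S (S := Λ) (M n) a) u

instance (priority := 90) instModuleAction : Module Λ P.Lim where
  one_smul u := (tends_smul_π 1 u).unique ((P.tends_π u).congr
    (Filter.Eventually.of_forall fun _ => (one_smul Λ _).symm))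
  mul_smul a b u := (tends_smul_π (a * b) u).unique
    (((tends_smul_π b u).map fun n => Module.toModuleEnd S (S := Λ) (M n) a).congr
      (Filter.Eventually.of_forall fun _ => (mul_smul a b _).symm))
  smul_zero _ := map_zero (P.map P _)
  smul_add _ u v := map_add (P.map P _) u v
  add_smul a b u := (tends_smul_π (a + b) u).unique
    (((tends_smul_π a u).add (tends_smul_π b u)).congr
    (Filter.Eventually.of_forall fun _ => (add_smul a b _).symm))
  zero_smul u := (tends_smul_π (0 : Λ) u).unique (tends_zero.congr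
    (Filter.Eventually.of_forall fun _ => (zero_smul Λ _).symm))

instance : SMulCommClass Λ S P.Lim :=
  ⟨fun a s u => map_smul (P.map P fun n => Module.toModuleEnd S (S := Λ) (M n) a) s u⟩

variable [∀ n, Module Λ (M' n)] [∀ n, SMulCommClass Λ S (M' n)]

/-- Maps commuting with the actions at the levels commute with them in the limit. -/
theorem map_smul_action (f : ∀ n, M n →ₗ[S] M' n)
    (hf : ∀ n (a : Λ) (x : M n), f n (a • x) = a • f n x) (a : Λ) (u : P.Lim) :
    P.map P' f (a • u) = a • P.map P' f u :=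
  (((tends_smul_π a u).map f).congr (Filter.Eventually.of_forall fun n => hf n a _)).unique
    ((tends_map f u).map fun n => Module.toModuleEnd S (S := Λ) (M' n) a)

variable (P P') in
/-- The limit of a family of maps commuting with the actions. -/
def mapLin (f : ∀ n, M n →ₗ[S] M' n)
    (hf : ∀ n (a : Λ) (x : M n), f n (a • x) = a • f n x) : P.Lim →ₗ[Λ] P'.Lim where
  toFun := P.map P' f
  map_add' := map_add _
  map_smul' := map_smul_action f hf

@[simp] theorem mapLin_apply (f : ∀ n, M n →ₗ[S] M' n)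
    (hf : ∀ n (a : Λ) (x : M n), f n (a • x) = a • f n x) (u : P.Lim) :
    P.mapLin P' f hf u = P.map P' f u := rfl

omit [IsAdicComplete (maximalIdeal S) S] in
/-- A uniform power of the maximal ideal of `Λ` carries the levels into `m ^ j`. -/
theorem exists_pow_smul_mem [IsLocalRing Λ] (P : Presentation U S M) (j : ℕ) :
    ∃ N, ∀ᶠ n in (U : Filter ℕ),
    ∀ a ∈ maximalIdeal Λ ^ N, ∀ x : M n,
      a • x ∈ maximalIdeal S ^ j • (⊤ : Submodule S (M n)) := by
  classical
  have := finite_quotient_pow (O := S) j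
  set C := Nat.card (Fin P.rank → S ⧸ maximalIdeal S ^ j)
  refine ⟨C ^ C, ?_⟩
  filter_upwards [P.surj] with n hs a ha x
  set W := maximalIdeal S ^ j • (⊤ : Submodule S (M n))
  let Q := M n ⧸ W
  -- The quotient of a level by `m ^ j` has at most `C` elements.
  have hpre : ∀ q : Q, ∃ w, W.mkQ (P.proj n w) = q := fun q => by
    obtain ⟨y, rfl⟩ := W.mkQ_surjective q
    obtain ⟨w, rfl⟩ := hs y
    exact ⟨w, rfl⟩
  choose w hw using hpre
  let g : Q → Fin P.rank → S ⧸ maximalIdeal S ^ j := fun q i => Ideal.Quotient.mk _ (w q i)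
  have hg : Function.Injective g := fun q q' h => by
    rw [← hw q, ← hw q', ← sub_eq_zero, ← map_sub, ← map_sub, mkQ_apply,
      Submodule.Quotient.mk_eq_zero]
    have h1 := Submodule.mem_map_of_mem (f := P.proj n) (mem_smul_top_pi_iff.mpr fun i =>
      Ideal.Quotient.eq.mp (congrFun h i) : w q - w q' ∈
        maximalIdeal S ^ j • (⊤ : Submodule S (Fin P.rank → S)))
    rw [Submodule.map_smul''] at h1
    exact Submodule.smul_mono le_rfl le_top h1
  have : Finite Q := Finite.of_injective g hg
  have hle : ∀ b : Λ, W ≤ W.comap (Module.toModuleEnd S (S := Λ) (M n) b) := fun b =>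
    Submodule.map_le_iff_le_comap.mp (by
      rw [Submodule.map_smul'']
      exact Submodule.smul_mono le_rfl le_top)
  -- So a power of the maximal ideal bounded by the endomorphisms kills it.
  let h : Λ →+* Module.End S Q :=
    { toFun := fun b => W.mapQ W (Module.toModuleEnd S (S := Λ) (M n) b) (hle b)
      map_one' := Submodule.linearMap_qext _ (LinearMap.ext fun y => by simp)
      map_mul' := fun b c => Submodule.linearMap_qext _ (LinearMap.ext fun y => by simp [mul_smul])
      map_zero' := Submodule.linearMap_qext _ (LinearMap.ext fun y => by simp)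
      map_add' := fun b c => Submodule.linearMap_qext _ (LinearMap.ext fun y =>
        by simp [add_smul]) }
  have : Finite (Module.End S Q) := Finite.of_injective _ DFunLike.coe_injective
  have hcard : Nat.card (Module.End S Q) ≤ C ^ C := by
    refine (Nat.card_le_card_of_injective _ DFunLike.coe_injective).trans ?_
    rw [Nat.card_fun]
    have hQC : Nat.card Q ≤ C := Nat.card_le_card_of_injective g hg
    exact (Nat.pow_le_pow_left hQC _).trans (Nat.pow_le_pow_right Nat.card_pos hQC)
  have h0 := map_eq_zero_of_mem_pow_card h (Ideal.pow_le_pow_right hcard ha)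
  exact (Submodule.Quotient.mk_eq_zero W).mp (LinearMap.congr_fun h0 (W.mkQ x))

variable [IsLocalRing Λ]

/-- The action is continuous. -/
theorem Tends.smul_conv {a : ℕ → Λ} {b : Λ} (ha : Conv U a b) {u : P.Lim} {x : ∀ n, M n}
    (h : P.Tends u x) : P.Tends (b • u) fun n => a n • x n := fun j => by
  obtain ⟨N, hN⟩ := P.exists_pow_smul_mem (Λ := Λ) j
  filter_upwards [hN, ha N, (h.map (fun n => Module.toModuleEnd S (S := Λ) (M n) b) : P.Tends
    (b • u) _) j]
    with n hNn han hn
  have h1 : a n • x n - P.π n (b • u) = (a n - b) • x n + (b • x n - P.π n (b • u)) := by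
    rw [sub_smul]; abel
  rw [h1]
  exact add_mem (hNn _ han _) hn

/-- Elements killing the levels pass to the limit. -/
theorem smul_eq_zero_of_conv {a : ℕ → Λ} {b : Λ} (ha : Conv U a b)
    (h : ∀ᶠ n in (U : Filter ℕ), ∀ x : M n, a n • x = 0) (u : P.Lim) : b • u = 0 :=
  ((P.tends_π u).smul_conv ha).unique (tends_zero.congr (h.mono fun _ hn => (hn _).symm))

/-- The limit of ideals annihilating most terms annihilates the limit module. -/
theorem limitIdeal_le_annihilator [IsAdicComplete (maximalIdeal Λ) Λ]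
    [Finite (ResidueField Λ)] {I : ℕ → Ideal Λ}
    (h : ∀ᶠ n in (U : Filter ℕ), ∀ a ∈ I n, ∀ x : M n, a • x = 0) :
    limitIdeal U I ≤ Module.annihilator Λ P.Lim := fun _ ⟨_, hz, hb⟩ =>
  Module.mem_annihilator.mpr (smul_eq_zero_of_conv hb (h.mono fun n hn => hn _ (hz n)))

/-- An endomorphism which is a sequence of scalars at the levels is their limit. -/
theorem map_eq_smul {a : ℕ → Λ} {b : Λ} (ha : Conv U a b) (f : ∀ n, M n →ₗ[S] M n)
    (hf : ∀ᶠ n in (U : Filter ℕ), ∀ x, f n x = a n • x) (u : P.Lim) :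
    P.map P f u = b • u :=
  map_eq_of_forall f (((P.tends_π u).smul_conv ha).congr (hf.mono fun _ hn => (hn _).symm))

/-- The maximal ideal of `Λ` acts topologically nilpotently on the limit. -/
theorem exists_pow_smul_lim_mem (j : ℕ) : ∃ N, ∀ a ∈ maximalIdeal Λ ^ N, ∀ u : P.Lim,
    a • u ∈ maximalIdeal S ^ j • (⊤ : Submodule S P.Lim) := by
  obtain ⟨N, hN⟩ := P.exists_pow_smul_mem (Λ := Λ) j
  refine ⟨N, fun a ha u => ?_⟩
  obtain ⟨n, ⟨h1, h2⟩, hm⟩ := ((hN.and (tends_smul_π a u j)).and (P.eventually_mem j)).exists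
  refine hm _ ?_
  simpa using sub_mem (h1 a ha (P.π n u)) h2

end Action

end Presentation

/-! ## Finiteness over the acting ring -/

section Finite

variable {S : Type*} [CommRing S] [IsLocalRing S] [IsNoetherianRing S] [Finite (ResidueField S)]
  {Λ : Type*} [CommRing Λ] [IsLocalRing Λ] [IsPrecomplete (maximalIdeal Λ) Λ]
  {L : Type*} [AddCommGroup L] [Module S L] [Module.Finite S L] [Module Λ L]

/-- A module finite over `S` on which `m_Λ` is topologically nilpotent and `m_S ^ K L ⊆ m_Λ L` is
finite over `Λ`. -/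
theorem finite_of_pow_le (hnil : ∀ j, ∃ N, ∀ a ∈ maximalIdeal Λ ^ N, ∀ u : L,
      a • u ∈ maximalIdeal S ^ j • (⊤ : Submodule S L))
    {K : ℕ} (hK : ∀ s ∈ maximalIdeal S ^ K, ∀ u : L,
      s • u ∈ maximalIdeal Λ • (⊤ : Submodule Λ L)) : Module.Finite Λ L := by
  classical
  have : IsHausdorff (maximalIdeal Λ) L := ⟨fun u hu =>
    (inferInstance : IsHausdorff (maximalIdeal S) L).haus _ fun j => by
      obtain ⟨N, hN⟩ := hnil j
      rw [SModEq.zero]
      have huN := SModEq.zero.mp (hu N)
      exact Submodule.smul_induction_on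
        (p := fun x => x ∈ maximalIdeal S ^ j • (⊤ : Submodule S L)) huN
        (fun r hr x _ => hN r hr x) fun x y hx hy => add_mem hx hy⟩
  set W := maximalIdeal Λ • (⊤ : Submodule Λ L)
  obtain ⟨k, g, hg⟩ := Module.Finite.exists_fin (R := S) (M := L)
  have := finite_quotient_pow (O := S) K
  have hfin : Finite (L ⧸ W) := by
    choose c hc using fun u : L => Submodule.mem_span_range_iff_exists_fun S |>.mp
      (hg.ge (mem_top (x := u)))
    refine Finite.of_injective (fun q : L ⧸ W => fun i =>
      Ideal.Quotient.mk (maximalIdeal S ^ K) (c q.out i)) fun q q' h => ?_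
    rw [← q.out_eq, ← q'.out_eq]
    refine (Submodule.Quotient.eq W).mpr ?_
    rw [← hc q.out, ← hc q'.out, ← Finset.sum_sub_distrib]
    exact sum_mem fun i _ => by
      rw [← sub_smul]
      exact hK _ (Ideal.Quotient.eq.mp (congrFun h i)) _
  exact finite_of_quotient (maximalIdeal Λ)

end Finite

section Quad

open MvPowerSeries

variable {ι O : Type*} [Finite ι] [CommRing O] [IsLocalRing O] [IsNoetherianRing O]
  [Finite (ResidueField O)]
  {Λ : Type*} [CommRing Λ] [IsLocalRing Λ] [IsPrecomplete (maximalIdeal Λ) Λ]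
  {L : Type*} [AddCommGroup L] [Module (MvPowerSeries ι O) L]
  [Module.Finite (MvPowerSeries ι O) L] [Module Λ L] [SMulCommClass Λ (MvPowerSeries ι O) L]

/-- **Finiteness over `Λ`**: the constants act as elements of `Λ` and each
`(1 + y i) + (1 + y i)⁻¹` as one. -/
theorem finite_of_quad
    (hnil : ∀ j, ∃ N, ∀ a ∈ maximalIdeal Λ ^ N, ∀ u : L,
      a • u ∈ maximalIdeal (MvPowerSeries ι O) ^ j • (⊤ : Submodule (MvPowerSeries ι O) L))
    (hC : ∀ o ∈ maximalIdeal O, ∃ a ∈ maximalIdeal Λ, ∀ u : L,
      (C o : MvPowerSeries ι O) • u = a • u)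
    (hquad : ∀ i, ∃ c : Λ, ∀ u : L,
      ((1 + X i) ^ 2 + 1 : MvPowerSeries ι O) • u = (1 + X i : MvPowerSeries ι O) • c • u) :
    Module.Finite Λ L := by
  classical
  set S := MvPowerSeries ι O
  have := Fintype.ofFinite ι
  have : Finite (ResidueField S) := finite_residueField_mvPowerSeries
  have : SMulCommClass S Λ L := SMulCommClass.symm ..
  set W := maximalIdeal Λ • (⊤ : Submodule Λ L)
  have hW : ∀ (s : S), ∀ u ∈ W, s • u ∈ W := by
    intro s u hu
    refine Submodule.smul_induction_on (p := fun u => s • u ∈ W) hu (fun r hr x _ => ?_)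
      fun x y hx hy => ?_
    · rw [smul_comm]; exact Submodule.smul_mem_smul hr mem_top
    · rw [smul_add]; exact add_mem hx hy
  -- The elements of `S` acting into `m_Λ L`.
  let J : Ideal S :=
    { carrier := {s | ∀ u : L, s • u ∈ W}
      zero_mem' := fun u => by simp
      add_mem' := fun hs ht u => by rw [add_smul]; exact add_mem (hs u) (ht u)
      smul_mem' := fun s t ht u => by rw [smul_eq_mul, mul_smul]; exact hW s _ (ht u) }
  have hCJ : ∀ o ∈ maximalIdeal O, (C o : S) ∈ J := fun o ho u => by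
    obtain ⟨a, ha, hau⟩ := hC o ho
    rw [hau]
    exact Submodule.smul_mem_smul ha mem_top
  -- They contain the squares of the variables: `x ^ 2 = (1 + x) (c - 2)`.
  have hXJ : ∀ i, (X i : S) ^ 2 ∈ J := fun i => by
    obtain ⟨c, hc⟩ := hquad i
    have hX : (X i : S) ∈ maximalIdeal S := span_X_le_maximalIdeal (Ideal.subset_span ⟨i, rfl⟩)
    have hsq : ∀ u : L, (X i : S) ^ 2 • u = (1 + X i : S) • (c - 2) • u := fun u => by
      have h2 : (2 : Λ) • u = (2 : S) • u := by rw [two_smul, two_smul]
      rw [sub_smul, smul_sub, ← hc, h2, smul_smul, ← sub_smul]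
      congr 1; ring
    by_cases hm : c - 2 ∈ maximalIdeal Λ
    · intro u
      rw [hsq]
      exact hW _ _ (Submodule.smul_mem_smul hm mem_top)
    · obtain ⟨v, hv⟩ := IsLocalRing.notMem_maximalIdeal.mp hm
      obtain ⟨e, he⟩ := isUnit_one_sub_self_of_mem_nonunits _ (neg_mem hX)
      rw [sub_neg_eq_add] at he
      have htop : (⊤ : Submodule S L) ≤ maximalIdeal S • (⊤ : Submodule S L) := fun u _ => by
        have : u = (X i : S) ^ 2 • ((↑e⁻¹ : S) • (↑v⁻¹ : Λ) • u) := by
          rw [hsq, ← hv, ← he, smul_comm (v : Λ) ((↑e⁻¹ : S)), smul_smul (v : Λ), Units.mul_inv,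
            one_smul, smul_smul, Units.mul_inv, one_smul]
        rw [this]
        exact Submodule.smul_mem_smul (Ideal.pow_mem_of_mem _ hX 2 two_pos) mem_top
      have h0 : (⊤ : Submodule S L) = ⊥ :=
        Submodule.eq_bot_of_le_smul_of_le_jacobson_bot (maximalIdeal S) ⊤ Module.Finite.fg_top
          htop (maximalIdeal_le_jacobson _)
      intro u
      rw [(Submodule.mem_bot S).mp (h0.le (mem_top : u ∈ (⊤ : Submodule S L))), smul_zero]
      exact zero_mem _
  -- So they contain a power of the maximal ideal.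
  have hrad : maximalIdeal S ≤ J.radical := by
    intro f hf
    obtain ⟨g, hg⟩ := (Ideal.mem_span_range_iff_exists_fun).mp
      (Patching.sub_C_mem_span_range_X f)
    rw [show f = ∑ i, g i * X i + C (constantCoeff f) by rw [hg]; ring]
    refine add_mem (sum_mem fun i _ => Ideal.mul_mem_left _ _ ⟨2, hXJ i⟩)
      (Ideal.le_radical (hCJ _ ((IsLocalRing.mem_maximalIdeal _).mpr fun h =>
        (IsLocalRing.mem_maximalIdeal f).mp hf (MvPowerSeries.isUnit_iff_constantCoeff.mpr h))))
  obtain ⟨K, hK⟩ := Ideal.exists_pow_le_of_le_radical_of_fg hrad (IsNoetherian.noetherian _)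
  exact finite_of_pow_le hnil (K := K) fun s hs u => hK hs u

end Quad

end Fermat.Agent.RT.Algebra
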