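import Fermat.Agent.RT.Ihara.Flip

/-!
# Nakayama at a point, and the alternative at a place of unipotent inertia
-/

set_option autoImplicit false

namespace Fermat.Agent.RT.Algebra

open Submodule Fermat.Agent.RT.Ihara

section Nakayama

variable {Λ S : Type*} [CommRing Λ] [CommRing S] {M : Type*} [AddCommGroup M] [Module Λ M]
  [Module S M] [SMulCommClass Λ S M] [Module.Finite Λ M] {ι : Type*} [Finite ι]

/-- **Nakayama at a point.** If `P` contains the annihilator of `M` and powers of the `y i` carry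
`M` into `P • M`, everything carrying `M` into `y M` lies in `P`. -/
theorem mem_of_forall_smul_mem_span {P : Ideal Λ} [P.IsPrime]
    (hM : Module.annihilator Λ M ≤ P) (y : ι → S)
    (hy : ∀ i, ∃ k, ∀ m : M, y i ^ k • m ∈ P • (⊤ : Submodule Λ M)) {f : Λ}
    (hf : ∀ m : M, f • m ∈ Ideal.span (Set.range y) • (⊤ : Submodule S M)) : f ∈ P := by
  have : SMulCommClass S Λ M := SMulCommClass.symm ..
  set J := Ideal.span (Set.range y)
  have hst : ∀ (s : S), ∀ m ∈ P • (⊤ : Submodule Λ M), s • m ∈ P • (⊤ : Submodule Λ M) := by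
    intro s m hm
    refine Submodule.smul_induction_on (p := fun m => s • m ∈ P • (⊤ : Submodule Λ M)) hm
      (fun r hr x _ => ?_) fun a b ha hb => ?_
    · rw [smul_comm]; exact Submodule.smul_mem_smul hr mem_top
    · rw [smul_add]; exact add_mem ha hb
  let W : Ideal S :=
    { carrier := {s | ∀ m : M, s • m ∈ P • (⊤ : Submodule Λ M)}
      zero_mem' := fun m => by simp
      add_mem' := fun hs ht m => by rw [add_smul]; exact add_mem (hs m) (ht m)
      smul_mem' := fun s t ht m => by rw [smul_eq_mul, mul_smul]; exact hst s _ (ht m) }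
  have hrad : J ≤ W.radical := Ideal.span_le.mpr fun z hz => by
    obtain ⟨i, rfl⟩ := hz
    obtain ⟨k, hk⟩ := hy i
    exact ⟨k, hk⟩
  obtain ⟨K, hK⟩ := Ideal.exists_pow_le_of_le_radical_of_fg hrad
    (Submodule.fg_span (Set.finite_range y))
  have hfK : ∀ (j : ℕ) (m : M), f ^ j • m ∈ J ^ j • (⊤ : Submodule S M) := by
    intro j
    induction j with
    | zero => intro m; simp
    | succ j ih =>
      intro m
      rw [pow_succ f, mul_smul]
      have h1 : J ^ (j + 1) • (⊤ : Submodule S M) = J • (J ^ j • (⊤ : Submodule S M)) := by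
        rw [← Submodule.mul_smul, pow_succ']
      refine Submodule.smul_induction_on
        (p := fun x => f ^ j • x ∈ J ^ (j + 1) • (⊤ : Submodule S M)) (hf m)
        (fun r hr x _ => ?_) fun a b ha hb => ?_
      · rw [smul_comm, h1]
        exact Submodule.smul_mem_smul hr (ih x)
      · rw [smul_add]
        exact add_mem ha hb
  refine Ideal.IsPrime.mem_of_pow_mem ‹_› K (mem_of_forall_smul_mem hM fun m => ?_)
  exact Submodule.smul_induction_on (p := fun x => x ∈ P • (⊤ : Submodule Λ M)) (hfK K m)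
    (fun r hr x _ => hK hr x) fun a b ha hb => add_mem ha hb

/-- The form used at the end of patching: `(1 + y i) + (1 + y i)⁻¹` acts as some `c` with
`c - 2` in `P`. -/
theorem mem_of_forall_smul_mem_span_quad {P : Ideal Λ} [P.IsPrime]
    (hM : Module.annihilator Λ M ≤ P) (y : ι → S)
    (hquad : ∀ i, ∃ c : Λ, c - 2 ∈ P ∧
      ∀ m : M, ((1 + y i) ^ 2 + 1) • m = (1 + y i) • c • m) {f : Λ}
    (hf : ∀ m : M, f • m ∈ Ideal.span (Set.range y) • (⊤ : Submodule S M)) : f ∈ P := by
  refine mem_of_forall_smul_mem_span hM y (fun i => ⟨2, fun m => ?_⟩) hf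
  obtain ⟨c, hc, hq⟩ := hquad i
  have h : y i ^ 2 • m = (c - 2) • ((1 + y i) • m) := by
    rw [smul_comm, sub_smul, smul_sub, ← hq, two_smul, ← two_smul S m, smul_smul, ← sub_smul]
    congr 1; ring
  rw [h]
  exact Submodule.smul_mem_smul hc mem_top

end Nakayama

section Unipotent

variable {A : Type*} [CommRing A] [IsDomain A]

/-- Unipotent inertia `1 + N` with `Φ N = v N Φ`, `det Φ = v` and `v ≠ 0, ±1`: either `N = 0`, or
the place is special of some sign `ε`. -/
theorem eq_zero_or_exists_sign {N Φ : Matrix (Fin 2) (Fin 2) A} {v : A} (hN : N * N = 0)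
    (hconj : Φ * N = v • (N * Φ)) (hdet : Φ.det = v) (hv0 : v ≠ 0) (hv1 : v ≠ 1)
    (hv : v + 1 ≠ 0) :
    N = 0 ∨ ∃ ε : A, ε * ε = 1 ∧ Φ.trace = ε * (v + 1) ∧ Φ * N = (ε * v) • N ∧
      N * Φ = ε • N := by
  refine or_iff_not_imp_left.mpr fun hN0 => ?_
  have e00 := congrFun (congrFun hN 0) 0
  have e01 := congrFun (congrFun hN 0) 1
  have e10 := congrFun (congrFun hN 1) 0
  have e11 := congrFun (congrFun hN 1) 1
  simp only [Matrix.mul_apply, Fin.sum_univ_two, Matrix.zero_apply] at e00 e01 e10 e11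
  have htr : N 0 0 + N 1 1 = 0 := by
    have hb : N 0 1 * (N 0 0 + N 1 1) = 0 := by linear_combination e01
    rcases mul_eq_zero.mp hb with hb | h
    · rw [hb] at e00 e11
      have ha : N 0 0 = 0 := mul_self_eq_zero.mp (by linear_combination e00)
      have hd : N 1 1 = 0 := mul_self_eq_zero.mp (by linear_combination e11)
      rw [ha, hd, add_zero]
    · exact h
  have hd : N 1 1 = -N 0 0 := by linear_combination htr
  have c00 := congrFun (congrFun hconj 0) 0
  have c01 := congrFun (congrFun hconj 0) 1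
  have c10 := congrFun (congrFun hconj 1) 0
  have c11 := congrFun (congrFun hconj 1) 1
  simp only [Matrix.mul_apply, Fin.sum_univ_two, Matrix.smul_apply, smul_eq_mul,
    hd] at c00 c01 c10 c11
  set σ := Φ 0 0 * N 0 0 + Φ 0 1 * N 1 0 + Φ 1 0 * N 0 1 - Φ 1 1 * N 0 0 with hσd
  have hσ : σ = 0 := by
    have : (1 - v) * σ = 0 := by linear_combination c00 + c11
    exact (mul_eq_zero.mp this).resolve_left (sub_ne_zero.mpr (Ne.symm hv1))
  set t := Φ 0 0 + Φ 1 1 with htd
  have key : (v + 1) • (N * Φ) = t • N := by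
    refine Matrix.ext fun i j => ?_
    fin_cases i <;> fin_cases j <;>
      simp [Matrix.mul_apply, Fin.sum_univ_two, hd]
    · linear_combination hσ - c00
    · linear_combination -c01
    · linear_combination -c10
    · linear_combination hσ - c11
  -- With `(v + 1) N Φ = t N`, Cayley–Hamilton for `Φ` gives `t² = (v + 1)²`, hence the sign.
  have hsq : (v * (t ^ 2 - (v + 1) ^ 2)) • N = 0 := by
    have hCH : Φ * Φ = t • Φ - v • (1 : Matrix (Fin 2) (Fin 2) A) := by
      rw [Matrix.det_fin_two] at hdet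
      refine Matrix.ext fun i j => ?_
      fin_cases i <;> fin_cases j <;>
        simp [Matrix.mul_apply, Fin.sum_univ_two, ← hdet, htd] <;> ring
    have h1 : (v + 1) • ((v + 1) • (N * (Φ * Φ))) = t • (t • N) := by
      rw [← Matrix.mul_assoc, ← Matrix.smul_mul, key, Matrix.smul_mul, smul_comm, key]
    have h2 : N * (Φ * Φ) = t • (N * Φ) - v • N := by
      rw [hCH, Matrix.mul_sub, Matrix.mul_smul, Matrix.mul_smul, mul_one]
    rw [h2] at h1
    refine Matrix.ext fun i j => ?_
    have e1 := congrFun (congrFun h1 i) j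
    have e2 := congrFun (congrFun key i) j
    simp only [Matrix.smul_apply, Matrix.sub_apply, Matrix.zero_apply, smul_eq_mul] at e1 e2 ⊢
    linear_combination e1 - (v + 1) * t * e2
  obtain ⟨i, j, hij⟩ : ∃ i j, N i j ≠ 0 := by
    by_contra h
    exact hN0 (Matrix.ext fun i j => by_contra fun h' => h ⟨i, j, h'⟩)
  have h0 : v * (t ^ 2 - (v + 1) ^ 2) = 0 :=
    (mul_eq_zero.mp (congrFun (congrFun hsq i) j)).resolve_right hij
  obtain ⟨ε, hε, ht⟩ : ∃ ε : A, ε * ε = 1 ∧ t = ε * (v + 1) := by
    rcases sq_eq_sq_iff_eq_or_eq_neg.mp (sub_eq_zero.mp ((mul_eq_zero.mp h0).resolve_left hv0)) with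
      h | h
    · exact ⟨1, one_mul 1, h.trans (one_mul _).symm⟩
    · exact ⟨-1, by ring, h.trans (neg_one_mul _).symm⟩
  have hNΦ : N * Φ = ε • N := smul_right_injective _ hv (by
    show (v + 1) • (N * Φ) = (v + 1) • ε • N
    rw [key, ht, smul_smul, mul_comm])
  refine ⟨ε, hε, by rw [Matrix.trace_fin_two]; exact ht, ?_, hNΦ⟩
  rw [hconj, hNΦ, smul_smul, mul_comm]

end Unipotent

end Fermat.Agent.RT.Algebra
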