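import Fermat.Agent.RT.Algebra.Finite
import Fermat.Agent.RT.Germ.Multi
import Mathlib.RingTheory.AdicCompletion.Completeness
import Mathlib.RingTheory.AdicCompletion.Noetherian

/-!
# The relations are finite over a power series ring in the expected number of parameters
-/

set_option autoImplicit false

noncomputable section

namespace Fermat.Agent.RT.Algebra

open MvPowerSeries IsLocalRing Fermat.Agent.RT.Germ

variable {V ρ : Type*} {O : Type*} [CommRing O]

/-- The parameters `s, t + e, r + b` at each place and the free coordinates. -/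
def paramVal : V × Fin 3 ⊕ ρ → MvPowerSeries (Coord V ρ) O
  | Sum.inl (v, k) => ![X (Sum.inl (v, 1, 0)), X (Sum.inl (v, 1, 1)) + X (Sum.inl (v, 0, 2)),
      X (Sum.inl (v, 1, 2)) + X (Sum.inl (v, 0, 1))] k
  | Sum.inr r => X (Sum.inr r)

variable [Finite V] [Finite ρ]

theorem hasSubst_paramVal : HasSubst (paramVal (V := V) (ρ := ρ) (O := O)) := by
  refine hasSubst_of_constantCoeff_zero ?_
  rintro (⟨v, k⟩ | r)
  · fin_cases k <;> simp [paramVal]
  · simp [paramVal]

/-- The ring of parameters, mapped to the coordinates. -/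
def param : MvPowerSeries (V × Fin 3 ⊕ ρ) O →ₐ[O] MvPowerSeries (Coord V ρ) O :=
  substAlgHom hasSubst_paramVal

/-- `param` sends the variable `i` to the parameter `paramVal i`. -/
theorem param_X (i : V × Fin 3 ⊕ ρ) :
    param (X i : MvPowerSeries (V × Fin 3 ⊕ ρ) O) = paramVal i := substAlgHom_X _ i

omit [Finite V] [Finite ρ] in
theorem finite_of_linearMap {J : Ideal (MvPowerSeries (Coord V ρ) O)}
    [Module.Finite O (MvPowerSeries (Coord V ρ) O ⧸ J)] {M : Type*} [AddCommGroup M] [Module O M]
    (g : MvPowerSeries (Coord V ρ) O →ₗ[O] M) (hg : Function.Surjective g)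
    (hJ : ∀ x ∈ J, g x = 0) : Module.Finite O M := by
  have := Module.Finite.equiv (Submodule.Quotient.restrictScalarsEquiv O J).symm
  refine Module.Finite.of_surjective
    ((Submodule.restrictScalars O J).liftQ g fun x hx => LinearMap.mem_ker.mpr (hJ x hx)) fun x =>
      ?_
  obtain ⟨y, rfl⟩ := hg x
  exact ⟨Submodule.Quotient.mk y, Submodule.liftQ_apply _ _ _⟩

/-- A quotient in which all variables are nilpotent is finite over the coefficients. -/
theorem finite_of_isNilpotent_X (J : Ideal (MvPowerSeries (Coord V ρ) O))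
    (h : ∀ c : Coord V ρ, IsNilpotent (Ideal.Quotient.mk J (X c))) :
    Module.Finite O (MvPowerSeries (Coord V ρ) O ⧸ J) := by
  classical
  have := Fintype.ofFinite V
  have := Fintype.ofFinite ρ
  set B := MvPowerSeries (Coord V ρ) O ⧸ J
  set mk := Ideal.Quotient.mk J
  set x : Coord V ρ → B := fun c => mk (X c) with hx
  set A := Algebra.adjoin O (Set.range x)
  have hint : ∀ y ∈ Set.range x, IsIntegral O y := by
    rintro _ ⟨c, rfl⟩
    obtain ⟨n, hn⟩ := h c
    exact ⟨Polynomial.X ^ n, Polynomial.monic_X_pow n, by simp [x, hn]⟩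
  -- The algebra generated by the variables is finite.
  have hAfin : Module.Finite O A :=
    Algebra.finite_adjoin_of_finite_of_isIntegral (Set.finite_range x) hint
  set I := Ideal.span (Set.range x)
  have hI : ∃ N, I ^ N = ⊥ := by
    have hrad : I ≤ (⊥ : Ideal B).radical := Ideal.span_le.mpr fun y hy => by
      obtain ⟨c, rfl⟩ := hy
      obtain ⟨n, hn⟩ := h c
      exact ⟨n, by simpa [x] using hn⟩
    obtain ⟨N, hN⟩ := Ideal.exists_pow_le_of_le_radical_of_fg hrad
      (Submodule.fg_span (Set.finite_range x))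
    exact ⟨N, le_bot_iff.mp hN⟩
  obtain ⟨N, hN⟩ := hI
  -- It is dense for the adic filtration of the variables, which terminates.
  have key : ∀ n, ∀ b : B, ∃ a ∈ A, b - a ∈ I ^ n := by
    intro n
    induction n with
    | zero => exact fun b => ⟨0, zero_mem _, by simp⟩
    | succ n ih =>
      intro b
      obtain ⟨f, rfl⟩ := Ideal.Quotient.mk_surjective b
      obtain ⟨g, hg⟩ := Ideal.mem_span_range_iff_exists_fun.mp
        (Patching.sub_C_mem_span_range_X f)
      choose a haA ha using fun c => ih (mk (g c))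
      refine ⟨algebraMap O B (constantCoeff f) + ∑ c, a c * x c,
        add_mem (A.algebraMap_mem _) (sum_mem fun c _ =>
          mul_mem (haA c) (Algebra.subset_adjoin ⟨c, rfl⟩)), ?_⟩
      have h1 := congrArg mk hg
      simp only [map_sum, map_mul, map_sub] at h1
      have h2 : algebraMap O B (constantCoeff f) = mk (C (constantCoeff f)) := rfl
      rw [h2, show mk f - (mk (C (constantCoeff f)) + ∑ c, a c * x c) =
        ∑ c, (mk (g c) - a c) * x c by
          simp only [sub_mul, Finset.sum_sub_distrib, hx, h1]; ring]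
      rw [pow_succ]
      exact sum_mem fun c _ => Ideal.mul_mem_mul (ha c) (Ideal.subset_span ⟨c, rfl⟩)
  have hA : A = ⊤ := eq_top_iff.mpr fun b _ => by
    obtain ⟨a, ha, hb⟩ := key N b
    rw [hN, Ideal.mem_bot, sub_eq_zero] at hb
    exact hb ▸ ha
  rw [hA] at hAfin
  exact Module.Finite.equiv (Subalgebra.topEquiv : (⊤ : Subalgebra O B) ≃ₐ[O] B).toLinearEquiv

variable [IsDomain O] [IsDiscreteValuationRing O] [IsAdicComplete (maximalIdeal O) O]
  {δ : V → O}

omit [Finite V] [Finite ρ] [IsDomain O] [IsDiscreteValuationRing O]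
  [IsAdicComplete (maximalIdeal O) O] in
/-- A prime containing the images of the parameters and of the relations contains those of all the
coordinates, when the `δ v` map to zero. -/
private theorem coord_mem_of_isPrime {B : Type*} [CommRing B]
    (q : MvPowerSeries (Coord V ρ) O →+* B) {P : Ideal B} (hP : P.IsPrime)
    (hp : ∀ i, q (paramVal i) ∈ P) (hr : ∀ f ∈ relIdeal (ρ := ρ) δ, q f ∈ P)
    (hd : ∀ v, q (C (δ v)) = 0) (c : Coord V ρ) : q (X c) ∈ P := by
  obtain ⟨v, i, j⟩ | r := c
  swap
  · simpa [paramVal] using hp (Sum.inr r)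
  set a := q (X (Sum.inl (v, 0, 0)))
  set b := q (X (Sum.inl (v, 0, 1)))
  set e := q (X (Sum.inl (v, 0, 2)))
  set s := q (X (Sum.inl (v, 1, 0)))
  set t := q (X (Sum.inl (v, 1, 1)))
  set r' := q (X (Sum.inl (v, 1, 2)))
  -- The parameters give `s`, `t + e` and `r + b`.
  have hs : s ∈ P := by simpa [paramVal, s] using hp (Sum.inl (v, 0))
  have hte : t + e ∈ P := by simpa [paramVal, t, e] using hp (Sum.inl (v, 1))
  have hrb : r' + b ∈ P := by simpa [paramVal, r', b] using hp (Sum.inl (v, 2))
  have hd := hd v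
  have hcon : a ^ 2 + b * e ∈ P := by
    have := hr _ (Ideal.subset_span (Or.inl ⟨v, rfl⟩))
    simpa [conicRel, hd] using this
  have hmin : ∀ i j, q (minorRel v i j) ∈ P := fun i j =>
    hr _ (Ideal.subset_span (Or.inr ⟨(v, i, j), rfl⟩))
  have h01 : a * t - b * s ∈ P := by simpa [minorRel] using hmin 0 1
  have h12 : b * r' - e * t ∈ P := by simpa [minorRel] using hmin 1 2
  -- The minors and the conic force `a`, then `b` and `e`, into the prime.
  have hae : a * e ∈ P := by
    have := P.sub_mem (P.mul_mem_left a hte) (P.add_mem h01 (P.mul_mem_left b hs))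
    convert this using 1; ring
  have ha : a ∈ P := by
    by_contra ha
    have he := (hP.mem_or_mem hae).resolve_left ha
    refine ha (hP.mem_of_pow_mem 2 ?_)
    have := P.sub_mem hcon (P.mul_mem_left b he)
    convert this using 1; ring
  have hbe : b * e ∈ P := by
    have := P.sub_mem hcon (Ideal.pow_mem_of_mem _ ha 2 two_pos)
    convert this using 1; ring
  have hsq : b ^ 2 - e ^ 2 ∈ P := by
    have := P.sub_mem (P.sub_mem (P.mul_mem_left b hrb) (P.mul_mem_left e hte)) h12
    convert this using 1; ring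
  have hb : b ∈ P := by
    rcases hP.mem_or_mem hbe with hb | he
    · exact hb
    · refine hP.mem_of_pow_mem 2 ?_
      simpa using P.add_mem hsq (Ideal.pow_mem_of_mem _ he 2 two_pos)
  have he : e ∈ P := by
    refine hP.mem_of_pow_mem 2 ?_
    simpa using P.sub_mem (Ideal.pow_mem_of_mem _ hb 2 two_pos) hsq
  have ht : t ∈ P := by simpa using P.sub_mem hte he
  have hr' : r' ∈ P := by simpa using P.sub_mem hrb hb
  fin_cases i <;> fin_cases j <;> assumption

omit [Finite V] [Finite ρ] [IsDiscreteValuationRing O] [IsAdicComplete (maximalIdeal O) O] in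
/-- A coordinate is not a unit. -/
private theorem X_mem_nonunits (c : Coord V ρ) :
    (X c : MvPowerSeries (Coord V ρ) O) ∈ nonunits (MvPowerSeries (Coord V ρ) O) := fun h => by
  have := MvPowerSeries.isUnit_iff_constantCoeff.mp h
  simp at this

omit [Finite V] [Finite ρ] [IsAdicComplete (maximalIdeal O) O] in
/-- A nonunit constant lies in the maximal ideal of the series. -/
private theorem C_mem_maximalIdeal {c : O} (hc : c ∈ maximalIdeal O) :
    (C c : MvPowerSeries (Coord V ρ) O) ∈ maximalIdeal (MvPowerSeries (Coord V ρ) O) :=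
  (IsLocalRing.mem_maximalIdeal _).mpr fun h => (IsLocalRing.mem_maximalIdeal c).mp hc (by
    have := MvPowerSeries.isUnit_iff_constantCoeff.mp h
    simpa using this)

omit [Finite V] [Finite ρ] [IsAdicComplete (maximalIdeal O) O] in
/-- The relations lie in the maximal ideal when the `δ v` do. -/
private theorem relIdeal_le_maximalIdeal (hδ : ∀ v, δ v ∈ maximalIdeal O) :
    relIdeal (ρ := ρ) δ ≤ maximalIdeal (MvPowerSeries (Coord V ρ) O) := by
  set m := maximalIdeal (MvPowerSeries (Coord V ρ) O)
  have hXm : ∀ c, (X c : MvPowerSeries (Coord V ρ) O) ∈ m := X_mem_nonunits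
  rw [relIdeal, Ideal.span_le, Set.union_subset_iff]
  constructor
  · rintro _ ⟨v, rfl⟩
    exact m.sub_mem (m.add_mem (Ideal.pow_mem_of_mem _ (hXm _) 2 two_pos)
      (m.mul_mem_right _ (hXm _))) (Ideal.pow_mem_of_mem _ (C_mem_maximalIdeal (hδ v)) 2 two_pos)
  · rintro _ ⟨p, rfl⟩
    exact m.sub_mem (m.mul_mem_right _ (hXm _)) (m.mul_mem_right _ (hXm _))

omit [Finite V] [Finite ρ] [IsAdicComplete (maximalIdeal O) O] in
/-- The parameters lie in the maximal ideal. -/
private theorem paramVal_mem_maximalIdeal (i : V × Fin 3 ⊕ ρ) :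
    paramVal i ∈ maximalIdeal (MvPowerSeries (Coord V ρ) O) := by
  set m := maximalIdeal (MvPowerSeries (Coord V ρ) O)
  have hXm : ∀ c, (X c : MvPowerSeries (Coord V ρ) O) ∈ m := X_mem_nonunits
  obtain ⟨v, k⟩ | r := i
  · fin_cases k
    · exact hXm _
    · exact m.add_mem (hXm _) (hXm _)
    · exact m.add_mem (hXm _) (hXm _)
  · exact hXm _

omit [IsAdicComplete (maximalIdeal O) O] in
/-- Modulo the relations, the parameters and the coefficients of positive valuation every prime
contains all the coordinates, so this quotient is finite over the coefficients. -/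
private theorem finite_residual_quotient (hδ : ∀ v, δ v ∈ maximalIdeal O) :
    Module.Finite O (MvPowerSeries (Coord V ρ) O ⧸ (relIdeal (ρ := ρ) δ ⊔
      Ideal.span (Set.range (paramVal (V := V) (ρ := ρ))) ⊔
        (maximalIdeal O).map (C (σ := Coord V ρ)))) := by
  set J0 := relIdeal (ρ := ρ) δ ⊔ Ideal.span (Set.range (paramVal (V := V) (ρ := ρ))) ⊔
    (maximalIdeal O).map (C (σ := Coord V ρ))
  refine finite_of_isNilpotent_X J0 fun c => nilpotent_iff_mem_prime.mpr fun P hP => ?_
  set q := Ideal.Quotient.mk J0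
  have hp : ∀ i, q (paramVal i) ∈ P := fun i => by
    have h0 : q (paramVal i) = 0 := Ideal.Quotient.eq_zero_iff_mem.mpr
      (show paramVal i ∈ J0 from
        Ideal.mem_sup_left (Ideal.mem_sup_right (Ideal.subset_span ⟨i, rfl⟩)))
    rw [h0]
    exact P.zero_mem
  have hr : ∀ f ∈ relIdeal (ρ := ρ) δ, q f ∈ P := fun f hf => by
    have h0 : q f = 0 := Ideal.Quotient.eq_zero_iff_mem.mpr
      (show f ∈ J0 from Ideal.mem_sup_left (Ideal.mem_sup_left hf))
    rw [h0]
    exact P.zero_mem
  exact coord_mem_of_isPrime q hP hp hr (fun v => Ideal.Quotient.eq_zero_iff_mem.mpr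
    (Ideal.mem_sup_right (Ideal.mem_map_of_mem (C (σ := Coord V ρ)) (hδ v)))) c

/-- Modulo the relations and the parameters the series are finite over the coefficients, by
Nakayama. -/
private theorem finite_quotient_paramVal (hδ : ∀ v, δ v ∈ maximalIdeal O) :
    Module.Finite O (MvPowerSeries (Coord V ρ) O ⧸ (relIdeal (ρ := ρ) δ ⊔
      Ideal.span (Set.range (paramVal (V := V) (ρ := ρ))))) := by
  set Λ := MvPowerSeries (Coord V ρ) O
  set m := maximalIdeal Λ
  set J1 : Ideal Λ := relIdeal (ρ := ρ) δ ⊔ Ideal.span (Set.range (paramVal (V := V) (ρ := ρ)))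
  set J0 : Ideal Λ := J1 ⊔ (maximalIdeal O).map (C (σ := Coord V ρ))
  have hB0 : Module.Finite O (Λ ⧸ J0) := finite_residual_quotient hδ
  set π := maximalIdeal O
  let g : Λ →ₗ[O] ((Λ ⧸ J1) ⧸ (π • ⊤ : Submodule O (Λ ⧸ J1))) :=
    (Submodule.mkQ _).comp (Ideal.Quotient.mkₐ O J1).toLinearMap
  have : Module.Finite O ((Λ ⧸ J1) ⧸ (π • ⊤ : Submodule O (Λ ⧸ J1))) := by
    refine finite_of_linearMap g ((Submodule.mkQ_surjective _).comp Ideal.Quotient.mk_surjective)
      (J := J0) fun x hx => ?_
    obtain ⟨y, hy, z, hz, rfl⟩ := Submodule.mem_sup.mp hx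
    simp only [g, LinearMap.comp_apply, AlgHom.toLinearMap_apply, Ideal.Quotient.mkₐ_eq_mk,
      map_add, Ideal.Quotient.eq_zero_iff_mem.mpr hy, map_zero, zero_add, Submodule.mkQ_apply,
      Submodule.Quotient.mk_eq_zero]
    rw [Ideal.smul_top_eq_map, Submodule.restrictScalars_mem]
    have := Ideal.mem_map_of_mem (Ideal.Quotient.mk J1) hz
    rwa [Ideal.map_map] at this
  have hJ1 : J1 ≤ m := sup_le (relIdeal_le_maximalIdeal hδ) (Ideal.span_le.mpr (by
    rintro _ ⟨i, rfl⟩
    exact paramVal_mem_maximalIdeal i))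
  have : Nontrivial (Λ ⧸ J1) := Ideal.Quotient.nontrivial_iff.mpr fun h =>
    (maximalIdeal.isMaximal Λ).ne_top (top_le_iff.mp (h ▸ hJ1))
  have : IsLocalRing (Λ ⧸ J1) := IsLocalRing.of_surjective' _ Ideal.Quotient.mk_surjective
  have : IsHausdorff π (Λ ⧸ J1) := IsHausdorff.of_map (S := Λ ⧸ J1)
    (J := maximalIdeal (Λ ⧸ J1)) (by
      rw [Ideal.map_le_iff_le_comap]
      exact fun c hc => (IsLocalRing.eq_maximalIdeal (Ideal.comap_isMaximal_of_surjective
        (Ideal.Quotient.mk J1) Ideal.Quotient.mk_surjective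
        (K := maximalIdeal (Λ ⧸ J1)))).ge (C_mem_maximalIdeal hc))
  exact finite_of_quotient π

/-- The quotient by the relations is finite over the parameters. -/
theorem finite_param (hδ : ∀ v, δ v ∈ maximalIdeal O) :
    ((Ideal.Quotient.mk (relIdeal (ρ := ρ) δ)).comp
      (param (V := V) (ρ := ρ) (O := O)).toRingHom).Finite := by
  classical
  set Λ := MvPowerSeries (Coord V ρ) O
  set S0 := MvPowerSeries (V × Fin 3 ⊕ ρ) O
  set N := Λ ⧸ relIdeal (ρ := ρ) δ
  let _ : Algebra S0 N := ((Ideal.Quotient.mk (relIdeal (ρ := ρ) δ)).comp param.toRingHom).toAlgebra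
  have : IsScalarTower O S0 N := IsScalarTower.of_algebraMap_eq fun c => by
    rw [RingHom.algebraMap_toAlgebra, RingHom.comp_apply, AlgHom.toRingHom_eq_coe,
      RingHom.coe_coe, AlgHom.commutes]
    rfl
  have hrel := relIdeal_le_maximalIdeal (ρ := ρ) hδ
  have : Nontrivial N := Ideal.Quotient.nontrivial_iff.mpr fun h =>
    (maximalIdeal.isMaximal Λ).ne_top (top_le_iff.mp (h ▸ hrel))
  have : IsLocalRing N := IsLocalRing.of_surjective' _ Ideal.Quotient.mk_surjective
  set I0 : Ideal S0 := Ideal.span (Set.range X)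
  have hparm : ∀ i, param (X i : S0) ∈ maximalIdeal Λ := fun i =>
    param_X (O := O) i ▸ paramVal_mem_maximalIdeal i
  have hI0 : I0.map (algebraMap S0 N) ≤ maximalIdeal N := by
    rw [Ideal.map_span, Ideal.span_le]
    rintro _ ⟨_, ⟨i, rfl⟩, rfl⟩
    exact (IsLocalRing.eq_maximalIdeal (Ideal.comap_isMaximal_of_surjective
      (Ideal.Quotient.mk (relIdeal (ρ := ρ) δ)) Ideal.Quotient.mk_surjective
      (K := maximalIdeal N))).ge (hparm i)
  have : IsHausdorff (maximalIdeal N) N := inferInstance
  have : IsHausdorff I0 N := IsHausdorff.of_map (S := N) hI0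
  -- finite modulo the relations and the parameters, so finite over the parameters by Nakayama
  set J1 : Ideal Λ := relIdeal δ ⊔ Ideal.span (Set.range (paramVal (V := V) (ρ := ρ)))
  have hB1 : Module.Finite O (Λ ⧸ J1) := finite_quotient_paramVal hδ
  let g : Λ →ₗ[O] (N ⧸ (I0 • ⊤ : Submodule S0 N)) :=
    ((Submodule.mkQ (I0 • ⊤ : Submodule S0 N)).restrictScalars O).comp
      (Ideal.Quotient.mkₐ O (relIdeal (ρ := ρ) δ)).toLinearMap
  have : Module.Finite O (N ⧸ (I0 • ⊤ : Submodule S0 N)) := by
    refine finite_of_linearMap g ((Submodule.mkQ_surjective _).comp Ideal.Quotient.mk_surjective)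
      (J := J1) fun x hx => ?_
    obtain ⟨y, hy, z, hz, rfl⟩ := Submodule.mem_sup.mp hx
    simp only [g, LinearMap.comp_apply, LinearMap.restrictScalars_apply, AlgHom.toLinearMap_apply,
      Ideal.Quotient.mkₐ_eq_mk, map_add, Ideal.Quotient.eq_zero_iff_mem.mpr hy, map_zero, zero_add,
      Submodule.mkQ_apply, Submodule.Quotient.mk_eq_zero]
    rw [Ideal.smul_top_eq_map, Submodule.restrictScalars_mem]
    have hle : Ideal.span (Set.range (paramVal (V := V) (ρ := ρ))) ≤
        (I0.map (algebraMap S0 N)).comap (Ideal.Quotient.mk (relIdeal δ)) :=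
      Ideal.span_le.mpr (by
        rintro _ ⟨i, rfl⟩
        rw [SetLike.mem_coe, Ideal.mem_comap, ← param_X]
        exact Ideal.mem_map_of_mem (algebraMap S0 N) (Ideal.subset_span ⟨i, rfl⟩))
    exact hle hz
  have : Module.Finite S0 (N ⧸ (I0 • ⊤ : Submodule S0 N)) :=
    Module.Finite.of_restrictScalars_finite O S0 _
  exact finite_of_quotient I0

end Fermat.Agent.RT.Algebra
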