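import Fermat.Agent.RT.Algebra.Relations
import Mathlib.Order.CompletePartialOrder
import Mathlib.RingTheory.Flat.TorsionFree
import Mathlib.RingTheory.KrullDimension.NonZeroDivisors

/-!
# Support of a patched module killed by the relations

Let the `δ v` be nonzero and in the maximal ideal. If a module killed by the relations is finite
over the coordinates and finite free and nonzero over a power series ring with as many variables
as there are parameters, then every series multiplying it into `π` times itself has all its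
coefficients at monomials free of `a, b, e` in the maximal ideal. Here `a, b, e` are the
coordinates `(v, 0, ·)` of `Germ.Coord` at a place `v`; the others are `s, t, r` and the free
ones.

Main result: `coeff_mem_maximalIdeal`.
-/

set_option autoImplicit false

noncomputable section

namespace Fermat.Agent.RT.Algebra

open MvPowerSeries IsLocalRing Fermat.Agent.RT.Germ IsMulCommutative

/-! ## The unit ball -/

section Ball

variable {K : Type*} [NontriviallyNormedField K] [IsUltrametricDist K]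

/-- An element integral over the unit ball has norm at most one. -/
theorem norm_le_one_of_isIntegral {x : K} (h : IsIntegral (ball1 K) x) : ‖x‖ ≤ 1 := by
  obtain ⟨P, hP, hx⟩ := h
  by_contra hlt
  rw [not_le] at hlt
  rw [Polynomial.eval₂_eq_sum_range] at hx
  rcases Nat.eq_zero_or_pos P.natDegree with h0 | h0
  · rw [h0] at hx
    simp [Polynomial.eq_one_of_monic_natDegree_zero hP h0] at hx
  rw [Finset.sum_range_succ, hP.coeff_natDegree, map_one, one_mul] at hx
  have hb : ‖∑ i ∈ Finset.range P.natDegree,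
      algebraMap (ball1 K) K (P.coeff i) * x ^ i‖ ≤ ‖x‖ ^ (P.natDegree - 1) :=
    IsUltrametricDist.norm_sum_le_of_forall_le_of_nonneg (pow_nonneg (norm_nonneg _) _)
      fun i hi => by
        rw [norm_mul, norm_pow]
        calc ‖algebraMap (ball1 K) K (P.coeff i)‖ * ‖x‖ ^ i ≤ 1 * ‖x‖ ^ i :=
              mul_le_mul_of_nonneg_right (norm_coe_le (P.coeff i)) (pow_nonneg (norm_nonneg _) _)
          _ ≤ ‖x‖ ^ (P.natDegree - 1) := by
              rw [one_mul]
              exact pow_le_pow_right₀ hlt.le (Nat.le_sub_one_of_lt (Finset.mem_range.mp hi))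
  rw [eq_neg_of_add_eq_zero_left hx, norm_neg, norm_pow] at hb
  exact absurd hb (not_le.mpr (pow_lt_pow_right₀ hlt (by omega)))

variable [CompleteSpace K] {O : Type*} [CommRing O] [IsLocalRing O] {σ : Type*} [Finite σ]

/-- Evaluation maps the maximal ideal into the open ball. -/
theorem norm_ev_lt_one (φ : O →+* ball1 K) (hφ : ∀ c ∈ maximalIdeal O, ‖(φ c : K)‖ < 1)
    (a : σ → ball1 K) (ha : ∀ i, ‖(a i : K)‖ < 1) {f : MvPowerSeries σ O}
    (hf : f ∈ maximalIdeal (MvPowerSeries σ O)) : ‖(ev φ a ha f : K)‖ < 1 := by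
  classical
  have := Fintype.ofFinite σ
  have hc : constantCoeff f ∈ maximalIdeal O := (IsLocalRing.mem_maximalIdeal _).mpr fun h =>
    (IsLocalRing.mem_maximalIdeal f).mp hf (MvPowerSeries.isUnit_iff_constantCoeff.mpr h)
  obtain ⟨g, hg⟩ := (Ideal.mem_span_range_iff_exists_fun).mp (Patching.sub_C_mem_span_range_X f)
  have hf' : f = ∑ i, g i * X i + C (constantCoeff f) := by rw [hg]; ring
  rw [hf', map_add, ev_C, map_sum, AddMemClass.coe_add, AddSubmonoidClass.coe_finsetSum]
  refine (IsUltrametricDist.norm_add_le_max _ _).trans_lt (max_lt ?_ (hφ _ hc))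
  rcases (Finset.univ : Finset σ).eq_empty_or_nonempty with h | h
  · simp [h]
  · refine lt_of_le_of_lt (h.norm_sum_le_sup'_norm _) ((Finset.sup'_lt_iff h).mpr fun i _ => ?_)
    rw [map_mul, ev_X, Subring.coe_mul, norm_mul]
    exact lt_of_le_of_lt (mul_le_of_le_one_left (norm_nonneg _) (norm_coe_le _)) (ha i)

end Ball

variable {V ρ ι : Type*} [Finite V] [Finite ρ] [Finite ι]
  {O : Type*} [CommRing O] [IsDomain O] [IsDiscreteValuationRing O]
  [IsAdicComplete (maximalIdeal O) O]

/-! ## The free variables and the extraction of points -/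

/-- The variables free of `a, b, e`. -/
def freeEmb : V × Fin 3 ⊕ ρ ↪ Coord V ρ where
  toFun
    | Sum.inl (v, k) => Sum.inl (v, 1, k)
    | Sum.inr r => Sum.inr r
  inj' := by
    rintro (⟨v, k⟩ | r) (⟨w, l⟩ | s) h <;> simp_all

omit [Finite V] [Finite ρ] in
@[simp] theorem freeEmb_inl (v : V) (k : Fin 3) :
    freeEmb (ρ := ρ) (Sum.inl (v, k)) = Sum.inl (v, 1, k) := rfl

omit [Finite V] [Finite ρ] in
@[simp] theorem freeEmb_inr (r : ρ) : freeEmb (V := V) (Sum.inr r) = Sum.inr r := rfl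

omit [Finite V] [Finite ρ] in
theorem exists_embDomain_eq {d : Coord V ρ →₀ ℕ} (hd : ∀ v j, d (Sum.inl (v, 0, j)) = 0) :
    ∃ e : V × Fin 3 ⊕ ρ →₀ ℕ, Finsupp.embDomain freeEmb e = d := by
  refine ⟨d.comapDomain _ freeEmb.injective.injOn, Finsupp.ext fun c => ?_⟩
  obtain ⟨v, i, j⟩ | r := c
  · fin_cases i
    · rw [Finsupp.embDomain_of_notMem_range]
      · exact (hd v j).symm
      · rintro ⟨(⟨w, l⟩ | s), h⟩ <;> simp at h
    · exact (Finsupp.embDomain_apply_self freeEmb _ (Sum.inl (v, j))).trans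
        (Finsupp.comapDomain_apply _ _ _ _)
  · exact (Finsupp.embDomain_apply_self freeEmb _ (Sum.inr r)).trans
      (Finsupp.comapDomain_apply _ _ _ _)

variable {K : Type*} [NontriviallyNormedField K] [IsUltrametricDist K] [CompleteSpace K]
  [IsAlgClosed K] {δ : V → O}

omit [Finite V] [Finite ρ] [Finite ι] [IsDomain O] [IsDiscreteValuationRing O]
  [IsAdicComplete (maximalIdeal O) O] in
/-- An integral map sends the maximal ideal into the radical of the maximal ideal below. -/
theorem mem_radical_of_mem_maximalIdeal {σ A : Type*} [CommRing A]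
    [Algebra (MvPowerSeries ι O) A] [Algebra.IsIntegral (MvPowerSeries ι O) A] [IsLocalRing O]
    (ψ₀ : MvPowerSeries σ O →+* A) (hψ₀ : ψ₀.IsIntegral)
    {x : MvPowerSeries σ O} (hx : x ∈ maximalIdeal (MvPowerSeries σ O)) :
    ψ₀ x ∈ ((maximalIdeal (MvPowerSeries ι O)).map
      (algebraMap (MvPowerSeries ι O) A)).radical := by
  set S := MvPowerSeries ι O
  set Λ := MvPowerSeries σ O
  rw [Ideal.radical_eq_sInf, Ideal.mem_sInf]
  rintro P ⟨hIP, hP⟩
  have hle : maximalIdeal S ≤ P.comap (algebraMap S A) := Ideal.map_le_iff_le_comap.mp hIP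
  have hcm : (P.comap (algebraMap S A)).IsMaximal := by
    rw [← (maximalIdeal.isMaximal S).eq_of_le (Ideal.IsPrime.comap _).ne_top hle]
    exact maximalIdeal.isMaximal S
  have hPm : P.IsMaximal := Ideal.isMaximal_of_isIntegral_of_isMaximal_comap P hcm
  let _ : Algebra Λ A := ψ₀.toAlgebra
  have : Algebra.IsIntegral Λ A := ⟨hψ₀⟩
  exact (IsLocalRing.eq_maximalIdeal (I := P.comap (algebraMap Λ A))
    (Ideal.isMaximal_comap_of_isIntegral_of_isMaximal P)).ge hx

omit [Finite V] [Finite ρ] [IsAdicComplete (maximalIdeal O) O] in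
/-- The point extraction: if a domain finite over the parameters contains them and receives a
series ring compatibly and integrally, then a series with nonzero image is nonzero at some point
at which all series with zero image vanish. -/
theorem exists_ev_ne_zero_of_integral {σ : Type*} [Finite σ] (φ : O →+* ball1 K)
    (hφinj : Function.Injective φ) (hφ : ∀ c ∈ maximalIdeal O, ‖(φ c : K)‖ < 1)
    {A : Type*} [CommRing A] [IsDomain A] [Algebra (MvPowerSeries ι O) A]
    [Module.Finite (MvPowerSeries ι O) A]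
    (hinj : Function.Injective (algebraMap (MvPowerSeries ι O) A))
    (ψ₀ : MvPowerSeries σ O →+* A) (hψ₀ : ψ₀.IsIntegral)
    (hC : ∀ c : O, ψ₀ (C c) = algebraMap (MvPowerSeries ι O) A (C c))
    {f : MvPowerSeries σ O} (hne : ψ₀ f ≠ 0) :
    ∃ (x : σ → ball1 K) (hx : ∀ c, ‖(x c : K)‖ < 1),
      (∀ g, ψ₀ g = 0 → ev φ x hx g = 0) ∧ ev φ x hx f ≠ 0 := by
  classical
  let S := MvPowerSeries ι O
  let Λ := MvPowerSeries σ O
  have hcomap : (Ideal.span {ψ₀ f}).comap (algebraMap S A) ≠ ⊥ :=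
    Ideal.comap_ne_bot_of_integral_mem hne (Ideal.subset_span rfl)
      (Algebra.IsIntegral.isIntegral _)
  -- A nonzero `g` below is a multiple of `ψ₀ f`. At a point `y` with `g(y) ≠ 0` the evaluation
  -- extends to `A` with values in the unit ball, as `A` is integral; composed with `ψ₀` it is a
  -- point `x`, where `f` is not zero.
  obtain ⟨g, hgmem, hg0⟩ := Submodule.exists_mem_ne_zero_of_ne_bot hcomap
  obtain ⟨d, hd⟩ : ∃ d, coeff d g ≠ 0 := by
    by_contra h
    simp only [not_exists, not_not] at h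
    exact hg0 (MvPowerSeries.ext h)
  have := Fintype.ofFinite ι
  obtain ⟨y, hy, -, hyg⟩ :=
    exists_ev_ne_zero φ (f := g) (d₁ := d) (fun h => hd (hφinj (by rw [h, map_zero]))) one_pos
  set 𝔭 : Ideal S := RingHom.ker (ev φ y hy)
  have : 𝔭.IsPrime := RingHom.ker_isPrime _
  obtain ⟨𝔮, -, h𝔮, h𝔮p⟩ := Ideal.exists_ideal_over_prime_of_isIntegral 𝔭 (⊥ : Ideal A)
    (by rw [← RingHom.ker_eq_comap_bot, (RingHom.injective_iff_ker_eq_bot _).mp hinj]; exact bot_le)
  have : 𝔮.LiesOver 𝔭 := ⟨h𝔮p.symm⟩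
  let e : (S ⧸ 𝔭) →+* K := Ideal.Quotient.lift 𝔭 ((ball1 K).subtype.comp (ev φ y hy))
    fun s hs => by simp [show ev φ y hy s = 0 from hs]
  have he : Function.Injective e := by
    rw [injective_iff_map_eq_zero]
    intro x hx
    obtain ⟨s, rfl⟩ := Ideal.Quotient.mk_surjective x
    exact Ideal.Quotient.eq_zero_iff_mem.mpr (Subtype.ext hx)
  let _ : Algebra (S ⧸ 𝔭) K := e.toAlgebra
  have : Module.IsTorsionFree (S ⧸ 𝔭) K :=
    Module.isTorsionFree_iff_algebraMap_injective.mpr he
  have : Algebra.IsAlgebraic (S ⧸ 𝔭) (A ⧸ 𝔮) := ⟨fun x =>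
    IsIntegral.isAlgebraic (IsIntegral.tower_top (R := S) (A := S ⧸ 𝔭)
      (Algebra.IsIntegral.isIntegral x))⟩
  let L : (A ⧸ 𝔮) →ₐ[S ⧸ 𝔭] K := IsAlgClosed.lift
  let ψA : A →+* K := L.toRingHom.comp (Ideal.Quotient.mk 𝔮)
  have hψS : ∀ s, ψA (algebraMap S A s) = (ev φ y hy s : K) := fun s => by
    have := L.commutes (Ideal.Quotient.mk 𝔭 s)
    rw [Ideal.Quotient.algebraMap_mk_of_liesOver] at this
    exact this
  have hψ1 : ∀ a, ‖ψA a‖ ≤ 1 := fun a => by
    refine norm_le_one_of_isIntegral ?_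
    obtain ⟨P, hP, hPx⟩ := Algebra.IsIntegral.isIntegral (R := S) a
    refine ⟨P.map (ev φ y hy), hP.map _, ?_⟩
    have := congrArg ψA hPx
    rw [map_zero, Polynomial.hom_eval₂] at this
    rw [Polynomial.eval₂_map, show (algebraMap (ball1 K) K).comp (ev φ y hy) =
      ψA.comp (algebraMap S A) from RingHom.ext fun s => (hψS s).symm]
    exact this
  have hψm : ∀ x ∈ maximalIdeal Λ, ‖ψA (ψ₀ x)‖ < 1 := fun x hx => by
    set I := (maximalIdeal S).map (algebraMap S A)
    obtain ⟨n, hn⟩ := mem_radical_of_mem_maximalIdeal (ι := ι) ψ₀ hψ₀ hx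
    have hI : ∀ z ∈ I, ‖ψA z‖ < 1 := fun z hz => by
      induction hz using Submodule.span_induction with
      | mem z hz =>
        obtain ⟨s, hs, rfl⟩ := hz
        rw [hψS]
        exact norm_ev_lt_one φ hφ y hy hs
      | zero => simp
      | add z w _ _ h1 h2 =>
        rw [map_add]
        exact (IsUltrametricDist.norm_add_le_max _ _).trans_lt (max_lt h1 h2)
      | smul z w _ h1 =>
        rw [smul_eq_mul, map_mul, norm_mul]
        exact lt_of_le_of_lt (mul_le_of_le_one_left (norm_nonneg _) (hψ1 z)) h1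
    have hlt : ‖ψA (ψ₀ x)‖ ^ n < 1 := by
      rw [← norm_pow, ← map_pow]
      exact hI _ hn
    exact (pow_lt_one_iff_of_nonneg (norm_nonneg _) fun h0 => by simp [h0] at hlt).mp hlt
  let ψ' : Λ →+* ball1 K := (ψA.comp ψ₀).codRestrict (ball1 K) fun x => hψ1 (ψ₀ x)
  let x : σ → ball1 K := fun c => ψ' (X c)
  have hx : ∀ c, ‖(x c : K)‖ < 1 := fun c => hψm _ ((IsLocalRing.mem_maximalIdeal _).mpr
    fun h => by simpa using MvPowerSeries.isUnit_iff_constantCoeff.mp h)
  have hψC : ∀ c, ψA (ψ₀ (C c)) = (φ c : K) := fun c => by rw [hC, hψS, ev_C]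
  have hψev : ψ' = ev φ x hx :=
    eq_ev φ x hx (fun c => Subtype.ext (hψC c)) fun c => rfl
  refine ⟨x, hx, fun z hz => ?_, fun h0 => ?_⟩
  · rw [← hψev]
    refine Subtype.ext ?_
    show ψA (ψ₀ z) = 0
    rw [hz, map_zero]
  · rw [← hψev] at h0
    obtain ⟨w, hw⟩ := Ideal.mem_span_singleton.mp hgmem
    refine hyg (Subtype.ext ?_)
    rw [← hψS, hw, map_mul, show ψA (ψ₀ f) = 0 from congrArg Subtype.val h0, zero_mul]
    rfl

/-! ## The germ ideal -/

omit [IsAdicComplete (maximalIdeal O) O] in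
/-- The germ ideal lies in the kernel of `ψ₀`. -/
private theorem germIdeal_le_ker (φ : O →+* ball1 K) (hφinj : Function.Injective φ)
    (hφ : ∀ c ∈ maximalIdeal O, ‖(φ c : K)‖ < 1) (h2 : ‖(2 : K)‖ = 1)
    (hδ0 : ∀ v, δ v ≠ 0) (hδ' : ∀ v, ‖(φ (δ v) : K)‖ < 1)
    {A : Type*} [CommRing A] [IsDomain A] [Algebra (MvPowerSeries ι O) A]
    [Module.Finite (MvPowerSeries ι O) A]
    (hinj : Function.Injective (algebraMap (MvPowerSeries ι O) A))
    (ψ₀ : MvPowerSeries (Coord V ρ) O →+* A) (hψ₀ : ψ₀.IsIntegral)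
    (hC : ∀ c : O, ψ₀ (C c) = algebraMap (MvPowerSeries ι O) A (C c))
    (hrel : relIdeal δ ≤ RingHom.ker ψ₀) :
    germIdeal (ρ := ρ) hδ' ≤ RingHom.ker ψ₀ := by
  intro f hf
  by_contra hfC
  obtain ⟨x, hx, hker, hev⟩ :=
    exists_ev_ne_zero_of_integral φ hφinj hφ hinj ψ₀ hψ₀ hC (f := f) hfC
  refine hev (ev_eq_zero_of_mem_germIdeal hδ' h2
    (fun v => fun h => hδ0 v (hφinj (by rw [map_zero]; exact Subtype.ext h))) hf x hx
    (fun v => ?_) fun v i k => ?_)
  · have := congrArg Subtype.val (hker _ (hrel (Ideal.subset_span (Or.inl ⟨v, rfl⟩))))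
    simp only [conicRel, map_sub, map_add, map_mul, map_pow, ev_C, ev_X] at this
    simpa [sub_eq_zero] using this
  · have := congrArg Subtype.val (hker _ (hrel (Ideal.subset_span (Or.inr ⟨(v, i, k), rfl⟩))))
    simp only [minorRel, map_sub, map_mul, ev_X] at this
    simpa [sub_eq_zero] using this

/-- The parameters stay independent in the image of `ψ₀` when `S` has as many variables. -/
private theorem comap_param_ker_eq_bot (hδ : ∀ v, δ v ∈ maximalIdeal O)
    (hcard : Nat.card ι = Nat.card (V × Fin 3 ⊕ ρ))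
    {A : Type*} [CommRing A] [Algebra (MvPowerSeries ι O) A]
    [Module.Finite (MvPowerSeries ι O) A]
    (hinj : Function.Injective (algebraMap (MvPowerSeries ι O) A))
    (ψ₀ : MvPowerSeries (Coord V ρ) O →+* A) (hψ₀ : ψ₀.IsIntegral)
    (hrel : relIdeal δ ≤ RingHom.ker ψ₀) :
    (RingHom.ker ψ₀).comap (param (V := V) (ρ := ρ) (O := O)).toRingHom = ⊥ := by
  classical
  set S := MvPowerSeries ι O
  set Λ := MvPowerSeries (Coord V ρ) O
  set S0 := MvPowerSeries (V × Fin 3 ⊕ ρ) O
  set p : S0 →+* Λ := (param (V := V) (ρ := ρ) (O := O)).toRingHom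
  set C' := RingHom.ker ψ₀
  -- `Λ ⧸ ker ψ₀` is finite over the parameters, since `Λ` modulo the relations is
  have hfin0 : ((Ideal.Quotient.mk C').comp p).Finite := by
    have h := (RingHom.Finite.of_surjective (Ideal.Quotient.factor hrel)
      (Ideal.Quotient.factor_surjective hrel)).comp (finite_param (ρ := ρ) hδ)
    rwa [← RingHom.comp_assoc, Ideal.Quotient.factor_comp_mk] at h
  set 𝔠 := C'.comap p
  -- a nonzero parameter `c` in the kernel would be a nonzerodivisor of `S0`
  by_contra hne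
  obtain ⟨c, hc, hc0⟩ := Submodule.exists_mem_ne_zero_of_ne_bot hne
  let f0 : S0 ⧸ 𝔠 →+* Λ ⧸ C' := Ideal.quotientMap C' p le_rfl
  have hf0 : f0.Finite := RingHom.Finite.of_comp_finite (f := Ideal.Quotient.mk 𝔠) (by
    rw [Ideal.quotientMap_comp_mk]
    exact hfin0)
  let _ : Algebra (S0 ⧸ 𝔠) (Λ ⧸ C') := f0.toAlgebra
  have : Module.Finite (S0 ⧸ 𝔠) (Λ ⧸ C') := hf0
  -- integral extensions do not raise dimension: `dim A ≤ dim Λ⧸C' ≤ dim S0⧸𝔠`
  have h1 : ringKrullDim (Λ ⧸ C') ≤ ringKrullDim (S0 ⧸ 𝔠) := ringKrullDim_le_of_isIntegral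
  let _ : Algebra (Λ ⧸ C') A := (RingHom.kerLift ψ₀).toAlgebra
  have : Algebra.IsIntegral (Λ ⧸ C') A := ⟨fun a => by
    obtain ⟨P, hP, hPa⟩ := hψ₀ a
    refine ⟨P.map (Ideal.Quotient.mk C'), hP.map _, ?_⟩
    rw [Polynomial.eval₂_map]
    exact hPa⟩
  have h2' : ringKrullDim A ≤ ringKrullDim (Λ ⧸ C') := ringKrullDim_le_of_isIntegral
  have h3 : ringKrullDim S ≤ ringKrullDim A := le_ringKrullDim_of_isIntegral hinj
  -- killing `c` drops the dimension by one
  have h4 : ringKrullDim (S0 ⧸ 𝔠) + 1 ≤ ringKrullDim S0 :=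
    ringKrullDim_succ_le_of_surjective (Ideal.Quotient.mk 𝔠) Ideal.Quotient.mk_surjective
      (r := c) (mem_nonZeroDivisors_of_ne_zero hc0) (Ideal.Quotient.eq_zero_iff_mem.mpr hc)
  have := Fintype.ofFinite ι
  have := Fintype.ofFinite (V × Fin 3 ⊕ ρ)
  obtain ⟨eqv⟩ : Nonempty (ι ≃ (V × Fin 3 ⊕ ρ)) :=
    Fintype.card_eq.mp (by simpa [Nat.card_eq_fintype_card] using hcard)
  -- but `A` contains `S`, whose dimension equals that of `S0`
  have h5 : ringKrullDim S = ringKrullDim S0 :=
    ringKrullDim_eq_of_ringEquiv (MvPowerSeries.renameEquiv O eqv).toRingEquiv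
  have htop : ringKrullDim S0 ≠ ⊤ := ringKrullDim_ne_top
  have hbot : ringKrullDim S0 ≠ ⊥ := ringKrullDim_ne_bot
  have h6 : ringKrullDim S0 + 1 ≤ ringKrullDim S0 :=
    le_trans (add_le_add (((h5 ▸ h3).trans h2').trans h1) le_rfl) h4
  obtain ⟨D, hD⟩ := WithBot.ne_bot_iff_exists.mp hbot
  rw [← hD] at h6 htop
  obtain ⟨D', rfl⟩ :=
    ENat.ne_top_iff_exists.mp (show D ≠ ⊤ from fun h => htop (by rw [h]; rfl))
  exact absurd h6 (by norm_cast; omega)

/-- Let a domain be finite over the power series ring `S`, containing it, and integral over the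
coordinates, in whose image the relations vanish. If `S` has as many variables as there are
parameters, the kernel is contained in the germ ideal. -/
theorem ker_le_germIdeal (φ : O →+* ball1 K) (hφinj : Function.Injective φ)
    (hφ : ∀ c ∈ maximalIdeal O, ‖(φ c : K)‖ < 1) (h2 : ‖(2 : K)‖ = 1)
    (hδ0 : ∀ v, δ v ≠ 0) (hδ : ∀ v, δ v ∈ maximalIdeal O)
    (hδ' : ∀ v, ‖(φ (δ v) : K)‖ < 1) (hcard : Nat.card ι = Nat.card (V × Fin 3 ⊕ ρ))
    {A : Type*} [CommRing A] [IsDomain A] [Algebra (MvPowerSeries ι O) A]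
    [Module.Finite (MvPowerSeries ι O) A]
    (hinj : Function.Injective (algebraMap (MvPowerSeries ι O) A))
    (ψ₀ : MvPowerSeries (Coord V ρ) O →+* A) (hψ₀ : ψ₀.IsIntegral)
    (hC : ∀ c : O, ψ₀ (C c) = algebraMap (MvPowerSeries ι O) A (C c))
    (hrel : relIdeal δ ≤ RingHom.ker ψ₀) :
    RingHom.ker ψ₀ ≤ germIdeal (ρ := ρ) hδ' := by
  classical
  set Λ := MvPowerSeries (Coord V ρ) O
  set Q := germIdeal (ρ := ρ) hδ'
  -- every point kills the germ ideal
  have hQC : Q ≤ RingHom.ker ψ₀ := germIdeal_le_ker φ hφinj hφ h2 hδ0 hδ' hinj ψ₀ hψ₀ hC hrel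
  -- dimension
  set S0 := MvPowerSeries (V × Fin 3 ⊕ ρ) O
  set p : S0 →+* Λ := (param (V := V) (ρ := ρ) (O := O)).toRingHom
  set C' := RingHom.ker ψ₀
  set 𝔠 := C'.comap p
  have h𝔠 : 𝔠 = ⊥ := comap_param_ker_eq_bot hδ hcard hinj ψ₀ hψ₀ hrel
  intro x hx
  let fQ : S0 →+* Λ ⧸ Q := (Ideal.Quotient.mk Q).comp p
  have hfinQ : fQ.Finite := by
    have h := (RingHom.Finite.of_surjective (Ideal.Quotient.factor (relIdeal_le_germIdeal hδ'))
      (Ideal.Quotient.factor_surjective (relIdeal_le_germIdeal hδ'))).comp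
      (finite_param (ρ := ρ) hδ)
    rwa [← RingHom.comp_assoc, Ideal.Quotient.factor_comp_mk] at h
  let _ : Algebra S0 (Λ ⧸ Q) := fQ.toAlgebra
  have : Module.Finite S0 (Λ ⧸ Q) := hfinQ
  have : Q.IsPrime := germIdeal_isPrime hδ'
  have hcomap : (C'.map (Ideal.Quotient.mk Q)).comap (algebraMap S0 (Λ ⧸ Q)) = ⊥ := by
    rw [RingHom.algebraMap_toAlgebra, ← Ideal.comap_comap,
      Ideal.comap_map_of_surjective _ Ideal.Quotient.mk_surjective, ← RingHom.ker_eq_comap_bot,
      Ideal.mk_ker, sup_eq_left.mpr hQC]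
    exact h𝔠
  have hbot : C'.map (Ideal.Quotient.mk Q) = ⊥ := Ideal.eq_bot_of_comap_eq_bot hcomap
  exact Ideal.Quotient.eq_zero_iff_mem.mp
    ((Submodule.mem_bot _).mp (hbot ▸ Ideal.mem_map_of_mem _ hx))

/-! ## The support -/

omit [IsAdicComplete (maximalIdeal O) O] in
/-- The germ ideal reduces to zero in the series free of `a, b, e` over the residue field. -/
private theorem map_killCompl_eq_zero_of_mem_germIdeal (φ : O →+* ball1 K)
    (hφinj : Function.Injective φ) (hφ : ∀ c ∈ maximalIdeal O, ‖(φ c : K)‖ < 1)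
    (h2 : ‖(2 : K)‖ = 1) (hδ0 : ∀ v, δ v ≠ 0) (hδ' : ∀ v, ‖(φ (δ v) : K)‖ < 1) {π : O}
    (hπ : Irreducible π) {x : MvPowerSeries (Coord V ρ) O} (hx : x ∈ germIdeal (ρ := ρ) hδ') :
    MvPowerSeries.map (residue O) (killCompl freeEmb x) = 0 := by
  refine MvPowerSeries.ext fun e => ?_
  simp only [MvPowerSeries.coeff_map, map_zero]
  rw [residue_eq_zero_iff]
  by_contra hu
  obtain ⟨u, hu'⟩ := IsLocalRing.notMem_maximalIdeal.mp hu
  have hbound : ∀ c : O, ‖(φ c : K)‖ < 1 → ‖(φ c : K)‖ ≤ ‖(φ π : K)‖ := fun c hc => by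
    by_cases hcu : IsUnit c
    · obtain ⟨u, rfl⟩ := hcu
      have h1 : ‖(φ u : K)‖ * ‖(φ ↑u⁻¹ : K)‖ = 1 := by
        rw [← norm_mul, ← Subring.coe_mul, ← map_mul, Units.mul_inv, map_one, OneMemClass.coe_one,
          norm_one]
      nlinarith [norm_nonneg (φ u : K), norm_coe_le (φ (↑u⁻¹ : O))]
    · have hc' : c ∈ Ideal.span {π} := hπ.maximalIdeal_eq ▸ (IsLocalRing.mem_maximalIdeal c).mpr hcu
      obtain ⟨k, rfl⟩ := Ideal.mem_span_singleton.mp hc'
      rw [map_mul, Subring.coe_mul, norm_mul]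
      exact mul_le_of_le_one_right (norm_nonneg _) (norm_coe_le _)
  have h0 := norm_coeff_lt_one_of_mem_germIdeal hδ' h2
    (fun v => fun h => hδ0 v (hφinj (by rw [map_zero]; exact Subtype.ext h)))
    (hφ π ((IsLocalRing.mem_maximalIdeal π).mpr hπ.not_isUnit)) hbound hx
    (d := Finsupp.embDomain freeEmb e) (fun v k => Finsupp.embDomain_of_notMem_range _ _ _ (by
      rintro ⟨(⟨w, l⟩ | s), h⟩ <;> simp at h))
  rw [coeff_killCompl] at hu'
  rw [← hu'] at h0
  have h1 : ‖(φ u : K)‖ * ‖(φ ↑u⁻¹ : K)‖ = 1 := by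
    rw [← norm_mul, ← Subring.coe_mul, ← map_mul, Units.mul_inv, map_one, OneMemClass.coe_one,
      norm_one]
  nlinarith [norm_nonneg (φ u : K), norm_coe_le (φ (↑u⁻¹ : O))]

/-- If `f M ⊆ c M` and `c` is injective on `M`, then `f` is a root of some monic polynomial with
roots scaled by `c`, modulo the annihilator. -/
private theorem exists_monic_scaleRoots_mem_annihilator {Λ M : Type*} [CommRing Λ] [AddCommGroup M]
    [Module Λ M] [Module.Finite Λ M] {c f : Λ} (hc : Function.Injective fun y : M => c • y)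
    (hf : ∀ x : M, ∃ y : M, f • x = c • y) :
    ∃ P : Polynomial Λ, P.Monic ∧ (P.scaleRoots c).eval f ∈ Module.annihilator Λ M := by
  choose g hg using hf
  let h' : Module.End Λ M :=
    { toFun := g
      map_add' := fun x y => hc (by
        show c • g (x + y) = c • (g x + g y)
        rw [smul_add, ← hg, ← hg, ← hg, smul_add])
      map_smul' := fun r x => hc (by
        show c • g (r • x) = c • (r • g x)
        rw [← hg, smul_comm, smul_comm c, ← hg]) }
  obtain ⟨P, hP, hP0⟩ := LinearMap.exists_monic_and_aeval_eq_zero Λ h'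
  refine ⟨P, hP, Module.mem_annihilator.mpr fun m => ?_⟩
  have hmul : algebraMap Λ (Module.End Λ M) c * h' = algebraMap Λ (Module.End Λ M) f :=
    LinearMap.ext fun x => by simp [h', ← hg]
  have h0 := Polynomial.scaleRoots_aeval_eq_zero (r := c) hP0
  rw [hmul, Polynomial.aeval_algebraMap_apply] at h0
  simpa using LinearMap.congr_fun h0 m

/-- Where the scale vanishes, a monic polynomial with scaled roots is a power. -/
private theorem map_eval_scaleRoots {R T : Type*} [CommRing R] [CommRing T] (θ : R →+* T) {c : R}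
    (hc : θ c = 0) {P : Polynomial R} (hP : P.Monic) (f : R) :
    θ ((P.scaleRoots c).eval f) = θ f ^ P.natDegree := by
  rw [← Polynomial.eval₂_id, Polynomial.hom_eval₂, RingHom.comp_id,
    ← Polynomial.natDegree_scaleRoots P c, Polynomial.eval₂_eq_sum_range,
    Finset.sum_range_succ, Polynomial.natDegree_scaleRoots,
    Finset.sum_eq_zero fun i hi => ?_, zero_add]
  · rw [Polynomial.coeff_scaleRoots, hP.coeff_natDegree, Nat.sub_self, pow_zero, one_mul,
      map_one, one_mul]
  · rw [Polynomial.coeff_scaleRoots, map_mul, map_pow, hc,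
      zero_pow (Nat.sub_ne_zero_of_lt (Finset.mem_range.mp hi)), mul_zero, zero_mul]

/-- **Support.** If `M` is killed by the relations and is finite free and nonzero over a series
ring in as many variables as there are parameters, and `f M ⊆ π M`, then the coefficients of `f`
at monomials free of `a, b, e` are in the maximal ideal. -/
theorem coeff_mem_maximalIdeal (φ : O →+* ball1 K) (hφinj : Function.Injective φ)
    (hφ : ∀ c ∈ maximalIdeal O, ‖(φ c : K)‖ < 1) (h2 : ‖(2 : K)‖ = 1)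
    (hδ0 : ∀ v, δ v ≠ 0) (hδ : ∀ v, δ v ∈ maximalIdeal O)
    (hcard : Nat.card ι = Nat.card (V × Fin 3 ⊕ ρ))
    {M : Type*} [AddCommGroup M] [Nontrivial M] [Module (MvPowerSeries (Coord V ρ) O) M]
    [Module (MvPowerSeries ι O) M]
    [SMulCommClass (MvPowerSeries (Coord V ρ) O) (MvPowerSeries ι O) M]
    (hC : ∀ (c : O) (x : M), (C c : MvPowerSeries (Coord V ρ) O) • x =
      (C c : MvPowerSeries ι O) • x)
    [Module.Finite (MvPowerSeries ι O) M] [Module.Free (MvPowerSeries ι O) M]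
    [Module.Finite (MvPowerSeries (Coord V ρ) O) M]
    (hrel : ∀ r ∈ relIdeal (ρ := ρ) δ, ∀ x : M, r • x = 0)
    {π : O} (hπ : Irreducible π) {f : MvPowerSeries (Coord V ρ) O}
    (hf : ∀ x : M, ∃ y : M, f • x = (C π : MvPowerSeries (Coord V ρ) O) • y)
    {d : Coord V ρ →₀ ℕ} (hd : ∀ v k, d (Sum.inl (v, 0, k)) = 0) :
    coeff d f ∈ maximalIdeal O := by
  classical
  let S := MvPowerSeries ι O
  let Λ := MvPowerSeries (Coord V ρ) O
  have : SMulCommClass S Λ M := SMulCommClass.symm ..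
  let act : Λ →+* Module.End S M := Module.toModuleEnd S (S := Λ) M
  let B : Subalgebra S (Module.End S M) := Algebra.adjoin S (Set.range act)
  have : IsMulCommutative B := Algebra.isMulCommutative_adjoin S (by
    rintro _ ⟨a, rfl⟩ _ ⟨b, rfl⟩
    rw [← map_mul, ← map_mul, mul_comm])
  have : Module.Finite S B :=
    Module.Finite.of_injective (Subalgebra.val B).toLinearMap Subtype.coe_injective
  let actB : Λ →+* B := act.codRestrict B fun a => Algebra.subset_adjoin ⟨a, rfl⟩
  -- integrality over the coordinates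
  have hactB : actB.IsIntegral := isIntegral_action B le_rfl actB fun _ _ => rfl
  have hinjB : Function.Injective (algebraMap S B) := by
    rw [injective_iff_map_eq_zero]
    intro s hs
    obtain ⟨m, hm⟩ := exists_ne (0 : M)
    exact (smul_eq_zero.mp (LinearMap.congr_fun (congrArg Subtype.val hs) m)).resolve_right hm
  obtain ⟨P, -, hP, hP0⟩ := Ideal.exists_ideal_over_prime_of_isIntegral (⊥ : Ideal S)
    (⊥ : Ideal B)
    (by rw [← RingHom.ker_eq_comap_bot, (RingHom.injective_iff_ker_eq_bot _).mp hinjB])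
  let ψ₀ : Λ →+* B ⧸ P := (Ideal.Quotient.mk P).comp actB
  have hinjA : Function.Injective (algebraMap S (B ⧸ P)) := by
    rw [injective_iff_map_eq_zero]
    intro s hs
    rw [← Ideal.mem_bot, ← hP0, Ideal.mem_comap]
    exact Ideal.Quotient.eq_zero_iff_mem.mp hs
  have hδ' : ∀ v, ‖(φ (δ v) : K)‖ < 1 := fun v => hφ _ (hδ v)
  have hker := ker_le_germIdeal (ρ := ρ) φ hφinj hφ h2 hδ0 hδ hδ' hcard hinjA ψ₀
    (RingHom.IsIntegral.trans _ _ hactB
      (RingHom.isIntegral_of_surjective _ Ideal.Quotient.mk_surjective))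
    (fun c => congrArg (Ideal.Quotient.mk P) (Subtype.ext (LinearMap.ext fun x => hC c x)))
    (fun r hr => by
      show Ideal.Quotient.mk P (actB r) = 0
      rw [show actB r = 0 from Subtype.ext (LinearMap.ext fun x => hrel r hr x), map_zero])
  have hle : Module.annihilator Λ M ≤ germIdeal (ρ := ρ) hδ' := fun r hr => hker (by
    show Ideal.Quotient.mk P (actB r) = 0
    rw [show actB r = 0 from
      Subtype.ext (LinearMap.ext fun x => Module.mem_annihilator.mp hr x), map_zero])
  -- `f` is `π` times an endomorphism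
  have hπM : Function.Injective fun y : M => (C π : Λ) • y := fun y z h => by
    have hS : (C π : S) ≠ 0 := fun h0 => hπ.ne_zero (by
      simpa using congrArg constantCoeff h0)
    refine sub_eq_zero.mp ((smul_eq_zero.mp ?_).resolve_left hS)
    rw [smul_sub, sub_eq_zero, ← hC, ← hC]
    exact h
  obtain ⟨P', hP', hFA⟩ := exists_monic_scaleRoots_mem_annihilator hπM hf
  set F := (P'.scaleRoots (C π)).eval f
  -- reduce
  let θ : Λ →+* MvPowerSeries (V × Fin 3 ⊕ ρ) (ResidueField O) :=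
    (MvPowerSeries.map (residue O)).comp (killCompl freeEmb).toRingHom
  have hθπ : θ (C π) = 0 := by
    show MvPowerSeries.map (residue O) (killCompl freeEmb (C π)) = 0
    rw [killCompl_C, MvPowerSeries.map_C,
      (residue_eq_zero_iff π).mpr ((IsLocalRing.mem_maximalIdeal π).mpr hπ.not_isUnit), map_zero]
  have hθF : θ F = θ f ^ P'.natDegree := map_eval_scaleRoots θ hθπ hP' f
  have hsmall : ∀ x ∈ germIdeal (ρ := ρ) hδ', θ x = 0 := fun x hx =>
    map_killCompl_eq_zero_of_mem_germIdeal φ hφinj hφ h2 hδ0 hδ' hπ hx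
  have hpow : θ f ^ P'.natDegree = 0 := hθF ▸ hsmall F (hle hFA)
  have hθf : θ f = 0 := by
    rcases Nat.eq_zero_or_pos P'.natDegree with h0 | h0
    · rw [h0, pow_zero] at hpow; exact absurd hpow one_ne_zero
    · exact (pow_eq_zero_iff h0.ne').mp hpow
  obtain ⟨e, rfl⟩ := exists_embDomain_eq hd
  have := congrArg (coeff e) hθf
  simp only [θ, RingHom.comp_apply, AlgHom.toRingHom_eq_coe, RingHom.coe_coe,
    MvPowerSeries.coeff_map, map_zero] at this
  exact (residue_eq_zero_iff _).mp this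

end Fermat.Agent.RT.Algebra
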